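import Fermat.Agent.Corollaries.CF.Hurwitz

/-!
# Best approximations and badly approximable numbers

Lagrange's law of best approximation, and: an irrational number is badly approximable if and only
if its partial quotients are bounded (in particular the quadratic irrationals are).
-/

set_option autoImplicit false

namespace Fermat.Agent.Cor.CF

variable {x : ℝ}

/-- `q_n x - p_n` -/
noncomputable def err (x : ℝ) (n : ℕ) : ℝ := den x n * x - num x n

theorem err_succ (hx : Irrational x) (n : ℕ) : err x (n + 1) * cq x (n + 1) = -err x n := by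
  have := main_eq hx n
  unfold err
  linear_combination this

theorem err_ne_zero (hx : Irrational x) (n : ℕ) : err x n ≠ 0 := by
  induction n with
  | zero => simp [err, num, den]
  | succ n ih =>
    intro h
    have := err_succ hx n
    rw [h, zero_mul] at this
    exact ih (by linarith)

theorem err_mul_neg (hx : Irrational x) (n : ℕ) : err x n * err x (n + 1) < 0 := by
  have h1 := err_succ hx n
  have h2 := one_lt_cq hx n
  have h3 : 0 < err x (n + 1) ^ 2 := by
    have := err_ne_zero hx (n + 1)
    positivity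
  have h4 : err x n = -(err x (n + 1) * cq x (n + 1)) := by linarith
  rw [h4]
  nlinarith

/-- **Lagrange's law of best approximation**: `|q x - p| ≥ |q_n x - p_n|` for all integers `p` and
`0 < q < q_(n + 1)`, where `p_n / q_n` are the convergents of the continued fraction of `x`. -/
theorem best_approx (hx : Irrational x) (n : ℕ) {p q : ℤ} (hq : 0 < q) (hq' : q < den x (n + 2)) :
    |(den x (n + 1) : ℝ) * x - num x (n + 1)| ≤ |q * x - p| := by
  have hdet : num x (n + 2) * den x (n + 1) - num x (n + 1) * den x (n + 2) = (-1) ^ (n + 2) :=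
    det x (n + 1)
  have hs : ((-1 : ℤ) ^ (n + 2)) * (-1) ^ (n + 2) = 1 := by
    rw [← mul_pow]; norm_num
  set s : ℤ := (-1) ^ (n + 2) with hsdef
  set a := num x (n + 1) with ha
  set b := den x (n + 1) with hb
  set c := num x (n + 2) with hc
  set d := den x (n + 2) with hd
  obtain ⟨u, hu⟩ : ∃ u, u = s * (c * q - d * p) := ⟨_, rfl⟩
  obtain ⟨v, hv⟩ : ∃ v, v = s * (b * p - a * q) := ⟨_, rfl⟩
  have hp1 : u * a + v * c = p := by
    rw [hu, hv]
    linear_combination s * p * hdet + p * hs
  have hq1 : u * b + v * d = q := by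
    rw [hu, hv]
    linear_combination s * q * hdet + q * hs
  have hb1 : 1 ≤ b := (one_le_den hx n).2
  have hd1 : 1 ≤ d := (one_le_den hx (n + 1)).2
  have huv : u ≠ 0 ∧ u * v ≤ 0 := by
    rcases lt_trichotomy u 0 with h | h | h
    · refine ⟨h.ne, ?_⟩
      have : 0 ≤ v := by
        by_contra hv0
        push Not at hv0
        nlinarith
      nlinarith
    · exfalso
      rw [h, zero_mul, zero_add] at hq1
      have : 1 ≤ v := by
        by_contra hv0
        push Not at hv0
        nlinarith
      nlinarith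
    · refine ⟨h.ne', ?_⟩
      have : v ≤ 0 := by
        by_contra hv0
        push Not at hv0
        nlinarith
      nlinarith
  have he : (q : ℝ) * x - p = u * err x (n + 1) + v * err x (n + 2) := by
    rw [← hp1, ← hq1]
    unfold err
    rw [← ha, ← hb, ← hc, ← hd]
    push_cast
    ring
  change |err x (n + 1)| ≤ _
  rw [he]
  refine sq_le_sq.1 ?_
  have h1 : (1 : ℝ) ≤ (u : ℝ) ^ 2 := by
    have h2 : 0 < u ^ 2 := by
      have := huv.1
      positivity
    have h3 : 1 ≤ u ^ 2 := h2
    exact_mod_cast h3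
  have h2 : ((u : ℝ) * v) ≤ 0 := by exact_mod_cast huv.2
  have h3 := err_mul_neg hx (n + 1)
  have h4 : 0 ≤ ((u : ℝ) * v) * (err x (n + 1) * err x (n + 2)) :=
    mul_nonneg_of_nonpos_of_nonpos h2 h3.le
  nlinarith [sq_nonneg ((v : ℝ) * err x (n + 2)), sq_nonneg (err x (n + 1)),
    mul_le_mul_of_nonneg_right h1 (sq_nonneg (err x (n + 1)))]

theorem den_le_den_succ (hx : Irrational x) (n : ℕ) : den x n ≤ den x (n + 1) := by
  rcases n with _ | n
  · exact (by norm_num : (0 : ℤ) ≤ 1)
  · have h1 := one_le_pq hx n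
    have h2 := one_le_den hx n
    rw [show n + 1 + 1 = n + 2 from rfl, den_succ_succ]
    nlinarith

theorem lam_le (hx : Irrational x) {B : ℤ} (hB : ∀ n, pq x n ≤ B) (n : ℕ) : lam x n ≤ B + 2 := by
  have h1 : cq x (n + 1) < pq x (n + 1) + 1 := Int.lt_floor_add_one _
  have h2 : (pq x (n + 1) : ℝ) ≤ B := by exact_mod_cast hB (n + 1)
  have h3 : (1 : ℝ) ≤ den x (n + 1) := by exact_mod_cast (one_le_den hx n).2
  have h4 : (den x n : ℝ) ≤ den x (n + 1) := by exact_mod_cast den_le_den_succ hx n
  have h5 : (den x n : ℝ) / den x (n + 1) ≤ 1 := (div_le_one (by linarith)).2 h4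
  unfold lam
  linarith

/-- **An irrational number is badly approximable if and only if its partial quotients are
bounded.** -/
theorem badly_approximable_iff (hx : Irrational x) :
    (∃ c : ℝ, 0 < c ∧ ∀ p q : ℤ, 0 < q → c / (q : ℝ) ^ 2 ≤ |x - p / q|) ↔
      ∃ B : ℤ, ∀ n, pq x n ≤ B := by
  constructor
  · rintro ⟨c, hc, h⟩
    refine ⟨max (pq x 0) ⌈1 / c⌉, fun n => ?_⟩
    rcases n with _ | n
    · exact le_max_left _ _
    · refine le_max_of_le_right ?_
      have h1 := (one_le_den hx n).2
      have h2 := h (num x (n + 1)) (den x (n + 1)) (by omega)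
      rw [abs_sub_eq hx] at h2
      have h3 := lam_pos hx n
      have h4 : (0 : ℝ) < (den x (n + 1) : ℝ) ^ 2 := by
        have : (1 : ℝ) ≤ den x (n + 1) := by exact_mod_cast h1
        positivity
      have h5 : c * lam x n ≤ 1 := by
        rw [div_le_div_iff₀ h4 (by positivity)] at h2
        have h6 : (c * lam x n) * (den x (n + 1) : ℝ) ^ 2 ≤ 1 * (den x (n + 1) : ℝ) ^ 2 := by
          linarith
        exact le_of_mul_le_mul_right h6 h4
      have h6 : lam x n ≤ 1 / c := by
        rw [le_div_iff₀ hc]
        linarith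
      have h7 := pq_lt_cq hx (n + 1)
      have h8 : cq x (n + 1) ≤ lam x n := by
        have h9 : (0 : ℝ) ≤ den x n := by exact_mod_cast (one_le_den hx n).1
        have h10 : (0 : ℝ) ≤ (den x n : ℝ) / den x (n + 1) :=
          div_nonneg h9 (by exact_mod_cast (by omega : (0 : ℤ) ≤ den x (n + 1)))
        unfold lam
        linarith
      have h9 : (pq x (n + 1) : ℝ) ≤ (⌈1 / c⌉ : ℤ) := by
        have := Int.le_ceil (1 / c)
        linarith
      exact_mod_cast h9
  · rintro ⟨B, hB⟩
    have hB1 : (1 : ℝ) ≤ B := by exact_mod_cast (one_le_pq hx 0).trans (hB 1)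
    refine ⟨1 / (B + 2), by positivity, fun p q hq => ?_⟩
    have hex : ∃ n, q < den x (n + 2) := by
      refine ⟨q.toNat, ?_⟩
      have := le_den hx (q.toNat + 1)
      have e : ((q.toNat : ℕ) : ℤ) = q := Int.toNat_of_nonneg hq.le
      rw [show q.toNat + 1 + 1 = q.toNat + 2 from rfl] at this
      push_cast at this
      omega
    classical
    obtain ⟨n, hn1, hn2⟩ : ∃ n, den x (n + 1) ≤ q ∧ q < den x (n + 2) := by
      refine ⟨Nat.find hex, ?_, Nat.find_spec hex⟩
      rcases h : Nat.find hex with _ | m
      · exact hq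
      · have := Nat.find_min hex (m := m) (by omega)
        push Not at this
        exact this
    have h1 := best_approx hx n (p := p) hq hn2
    have hq0 : (0 : ℝ) < q := by exact_mod_cast hq
    have h3 : (1 : ℝ) ≤ den x (n + 1) := by exact_mod_cast (one_le_den hx n).2
    have h4 : (den x (n + 1) : ℝ) ≤ q := by exact_mod_cast hn1
    have e1 : |(den x (n + 1) : ℝ) * x - num x (n + 1)| =
        den x (n + 1) * |x - num x (n + 1) / den x (n + 1)| := by
      rw [← abs_of_pos (by linarith : (0 : ℝ) < den x (n + 1)), ← abs_mul,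
        abs_of_pos (by linarith : (0 : ℝ) < den x (n + 1))]
      congr 1
      field_simp
    have e2 : |(q : ℝ) * x - p| = q * |x - p / q| := by
      rw [← abs_of_pos hq0, ← abs_mul, abs_of_pos hq0]
      congr 1
      field_simp
    have h5 := lam_pos hx n
    have h6 := lam_le hx hB n
    rw [e1, e2, abs_sub_eq hx] at h1
    have e3 : (den x (n + 1) : ℝ) * (1 / (lam x n * (den x (n + 1) : ℝ) ^ 2)) =
        1 / (lam x n * den x (n + 1)) := by
      field_simp
    rw [e3] at h1
    have h7 : 1 / ((B + 2) * q) ≤ 1 / (lam x n * den x (n + 1)) := by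
      apply one_div_le_one_div_of_le (by positivity)
      exact mul_le_mul h6 h4 (by linarith) (by linarith)
    have h8 : 1 / (((B : ℝ) + 2) * q) ≤ q * |x - p / q| := h7.trans h1
    have h9 : 1 / ((B : ℝ) + 2) / (q : ℝ) ^ 2 = (1 / (((B : ℝ) + 2) * q)) / q := by
      field_simp
    rw [h9, div_le_iff₀ hq0]
    linarith

/-- **the quadratic irrationals are badly approximable** -/
theorem badly_approximable_of_quad (hx : Irrational x)
    (h : ∃ a b c : ℤ, a ≠ 0 ∧ (a : ℝ) * x ^ 2 + b * x + c = 0) :
    ∃ c : ℝ, 0 < c ∧ ∀ p q : ℤ, 0 < q → c / (q : ℝ) ^ 2 ≤ |x - p / q| := by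
  rw [badly_approximable_iff hx]
  obtain ⟨N, r, hr, hper⟩ := (periodic_iff hx).2 h
  refine ⟨∑ i ∈ Finset.range (N + r), |pq x i|, fun n => ?_⟩
  induction n using Nat.strong_induction_on with
  | _ n ih =>
    rcases lt_or_ge n (N + r) with hn | hn
    · exact (le_abs_self _).trans
        (Finset.single_le_sum (f := fun i => |pq x i|) (fun i _ => abs_nonneg _)
          (Finset.mem_range.2 hn))
    · obtain ⟨m, rfl⟩ : ∃ m, n = m + r := ⟨n - r, by omega⟩
      rw [hper m (by omega)]
      exact ih m (by omega)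

end Fermat.Agent.Cor.CF
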