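import Fermat.Agent.Corollaries.CF.Exp

/-!
# The continued fraction of `coth (1 / k)`

Euler 1737: `(e ^ (2 / k) + 1) / (e ^ (2 / k) - 1) = [k; 3 k, 5 k, 7 k, …]` for every natural number
`k ≥ 1`; hence `e ^ (2 / k)` is neither rational nor quadratic.
-/

set_option autoImplicit false

open Real

namespace Fermat.Agent.Cor.CF

/-- `∫ t ^ n (1 - t) ^ n e ^ (c t)` over `[0, 1]` -/
noncomputable def bess (c : ℝ) (n : ℕ) : ℝ := ∫ t in (0 : ℝ)..1, (t * (1 - t)) ^ n * exp (c * t)

theorem bess_int (c : ℝ) (n : ℕ) : IntervalIntegrable (fun t : ℝ => (t * (1 - t)) ^ n * exp (c * t))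
    MeasureTheory.volume 0 1 :=
  (by fun_prop : Continuous fun t : ℝ => (t * (1 - t)) ^ n * exp (c * t)).intervalIntegrable _ _

theorem bess_pos (c : ℝ) (n : ℕ) : 0 < bess c n := by
  refine intervalIntegral.intervalIntegral_pos_of_pos_on (bess_int c n) (fun t ht => ?_) one_pos
  have h1 : 0 < t := ht.1
  have h2 : 0 < 1 - t := sub_pos.2 ht.2
  positivity

theorem hasDerivAt_u (t : ℝ) : HasDerivAt (fun t : ℝ => t * (1 - t)) (1 - 2 * t) t := by
  have h := (hasDerivAt_id t).mul ((hasDerivAt_id t).const_sub 1)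
  refine h.congr_deriv ?_
  simp
  ring

theorem hasDerivAt_v (t : ℝ) : HasDerivAt (fun t : ℝ => 1 - 2 * t) (-2) t := by
  have h := ((hasDerivAt_id t).const_mul 2).const_sub 1
  refine h.congr_deriv ?_
  simp

theorem hasDerivAt_e (c t : ℝ) : HasDerivAt (fun t : ℝ => exp (c * t)) (exp (c * t) * c) t := by
  have h := ((hasDerivAt_id t).const_mul c).exp
  refine h.congr_deriv ?_
  simp

theorem bess_rec (c : ℝ) (n : ℕ) : c ^ 2 * bess c (n + 2) +
    2 * (2 * n + 3) * (n + 2) * bess c (n + 1) - (n + 1) * (n + 2) * bess c n = 0 := by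
  have hd : ∀ t ∈ Set.uIcc (0 : ℝ) 1, HasDerivAt
      (fun t : ℝ => (c * (t * (1 - t)) ^ (n + 2) - (n + 2) * ((t * (1 - t)) ^ (n + 1) *
        (1 - 2 * t))) * exp (c * t))
      (c ^ 2 * ((t * (1 - t)) ^ (n + 2) * exp (c * t)) +
        2 * (2 * n + 3) * (n + 2) * ((t * (1 - t)) ^ (n + 1) * exp (c * t)) -
        (n + 1) * (n + 2) * ((t * (1 - t)) ^ n * exp (c * t))) t := by
    intro t _
    have h1 := (hasDerivAt_u t).pow (n + 2)
    have h2 := (hasDerivAt_u t).pow (n + 1)
    have h3 := ((h1.const_mul c).sub ((h2.mul (hasDerivAt_v t)).const_mul ((n : ℝ) + 2))).mul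
      (hasDerivAt_e c t)
    refine h3.congr_deriv ?_
    simp only [Pi.mul_apply, Pi.pow_apply, Pi.sub_apply]
    push_cast
    ring
  have h := intervalIntegral.integral_eq_sub_of_hasDerivAt hd
    ((((bess_int c (n + 2)).const_mul _).add ((bess_int c (n + 1)).const_mul _)).sub
      ((bess_int c n).const_mul _))
  rw [intervalIntegral.integral_sub (((bess_int c (n + 2)).const_mul _).add
    ((bess_int c (n + 1)).const_mul _)) ((bess_int c n).const_mul _),
    intervalIntegral.integral_add ((bess_int c (n + 2)).const_mul _)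
    ((bess_int c (n + 1)).const_mul _), intervalIntegral.integral_const_mul,
    intervalIntegral.integral_const_mul, intervalIntegral.integral_const_mul] at h
  unfold bess
  rw [h]
  simp

theorem bess_zero (c : ℝ) : c * bess c 0 = exp c - 1 := by
  have hd : ∀ t ∈ Set.uIcc (0 : ℝ) 1, HasDerivAt (fun t : ℝ => exp (c * t))
      (c * ((t * (1 - t)) ^ 0 * exp (c * t))) t := by
    intro t _
    refine (hasDerivAt_e c t).congr_deriv ?_
    ring
  have h := intervalIntegral.integral_eq_sub_of_hasDerivAt hd ((bess_int c 0).const_mul _)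
  rw [intervalIntegral.integral_const_mul] at h
  unfold bess
  rw [h]
  simp

theorem bess_one (c : ℝ) : c ^ 2 * bess c 1 + 2 * bess c 0 = exp c + 1 := by
  have hd : ∀ t ∈ Set.uIcc (0 : ℝ) 1, HasDerivAt
      (fun t : ℝ => (c * (t * (1 - t)) - (1 - 2 * t)) * exp (c * t))
      (c ^ 2 * ((t * (1 - t)) ^ 1 * exp (c * t)) + 2 * ((t * (1 - t)) ^ 0 * exp (c * t))) t := by
    intro t _
    have h3 := (((hasDerivAt_u t).const_mul c).sub (hasDerivAt_v t)).mul (hasDerivAt_e c t)
    refine h3.congr_deriv ?_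
    simp only [Pi.sub_apply]
    ring
  have h := intervalIntegral.integral_eq_sub_of_hasDerivAt hd
    (((bess_int c 1).const_mul _).add ((bess_int c 0).const_mul _))
  rw [intervalIntegral.integral_add ((bess_int c 1).const_mul _) ((bess_int c 0).const_mul _),
    intervalIntegral.integral_const_mul, intervalIntegral.integral_const_mul] at h
  unfold bess
  rw [h]
  simp
  ring

/-- the denominators of the complete quotients -/
noncomputable def gm (c : ℝ) : ℕ → ℝ
  | 0 => exp c + 1
  | n + 1 => c ^ (n + 1) / n.factorial * bess c n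

theorem gm_pos {c : ℝ} (hc : 0 < c) (n : ℕ) : 0 < gm c n := by
  rcases n with _ | n
  · exact add_pos (exp_pos _) one_pos
  · exact mul_pos (by positivity) (bess_pos _ _)

theorem gm_rec {c k : ℝ} (hk : k * c = 2) (n : ℕ) :
    gm c n = (2 * n + 1) * k * gm c (n + 1) + gm c (n + 2) := by
  rcases n with _ | n
  · have h1 := bess_one c
    have h0 := bess_zero c
    simp only [gm, Nat.factorial, zero_add, Nat.cast_zero, mul_zero, Nat.cast_one, pow_one,
      div_one, mul_one, one_mul]
    linear_combination -h1 - bess c 0 * hk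
  · have h := bess_rec c n
    have hf : (n.factorial : ℝ) ≠ 0 := by positivity
    have hn : (n : ℝ) + 1 ≠ 0 := by positivity
    have hn2 : (n : ℝ) + 2 ≠ 0 := by positivity
    have e1 : ((n + 1).factorial : ℝ) = (n + 1) * n.factorial := by
      rw [Nat.factorial_succ]; push_cast; ring
    have e2 : ((n + 2).factorial : ℝ) = (n + 2) * ((n + 1) * n.factorial) := by
      rw [Nat.factorial_succ, Nat.factorial_succ]; push_cast; ring
    simp only [gm, e1, e2]
    push_cast
    rw [show n + 2 + 1 = n + 3 from rfl]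
    have e3 : (2 * ((n : ℝ) + 1) + 1) * k * (c ^ (n + 1 + 1) / ((n + 1) * n.factorial) *
        bess c (n + 1)) = 2 * (2 * n + 3) * (c ^ (n + 1) / ((n + 1) * n.factorial) *
        bess c (n + 1)) := by
      rw [pow_succ c (n + 1)]
      linear_combination (2 * n + 3) * (c ^ (n + 1) / ((n + 1) * n.factorial) *
        bess c (n + 1)) * hk
    rw [e3]
    field_simp
    linear_combination -c ^ (n + 1) * h

/-- **the continued fraction of `coth (1 / k)`** (Euler 1737):
`(e ^ (2 / k) + 1) / (e ^ (2 / k) - 1) = [k; 3 k, 5 k, 7 k, …]` -/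
theorem coth_continued_fraction {k : ℕ} (hk : 0 < k) (n : ℕ) :
    pq ((exp (2 / k) + 1) / (exp (2 / k) - 1)) n = (2 * n + 1) * k := by
  have hk0 : (0 : ℝ) < k := by exact_mod_cast hk
  have hk1 : (1 : ℝ) ≤ k := by exact_mod_cast hk
  set c : ℝ := 2 / k with hc
  have hc0 : 0 < c := by positivity
  have hkc : (k : ℝ) * c = 2 := by rw [hc]; field_simp
  set y := (exp c + 1) / (exp c - 1) with hy
  have key : ∀ n, cq y n = gm c n / gm c (n + 1) ∧ pq y n = (2 * n + 1) * k := by
    have step : ∀ n, cq y n = gm c n / gm c (n + 1) →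
        pq y n = (2 * n + 1) * k ∧ cq y (n + 1) = gm c (n + 1) / gm c (n + 2) := by
      intro n hn
      have h1 := gm_pos hc0 (n + 1)
      have h2 := gm_pos hc0 (n + 2)
      have h3 := gm_pos hc0 (n + 3)
      have h4 := gm_rec hkc n
      have h5 := gm_rec hkc (n + 1)
      have h6 : gm c (n + 2) < gm c (n + 1) := by
        rw [h5]
        have e : (1 : ℝ) ≤ (2 * ((n + 1 : ℕ) : ℝ) + 1) * k := by
          push_cast
          have : (0 : ℝ) ≤ n := Nat.cast_nonneg n
          nlinarith
        have e2 := mul_le_mul_of_nonneg_right e h2.le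
        linarith
      exact cf_step (k := (2 * n + 1) * k) hn h1 h2 h6 (by push_cast; linarith)
    intro n
    have h : cq y n = gm c n / gm c (n + 1) := by
      induction n with
      | zero =>
        have e : gm c 1 = exp c - 1 := by
          rw [← bess_zero c]
          simp [gm]
        rw [e]
        rfl
      | succ n ih => exact (step n ih).2
    exact ⟨h, (step n h).1⟩
  exact (key n).2

theorem irrational_of_one_le_pq {x : ℝ} (h : ∀ n, 1 ≤ pq x n) : Irrational x := by
  rintro ⟨q, hq⟩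
  obtain ⟨n, -, h0⟩ := exists_cq_le_of_rat q.den x q.num q.den (by exact_mod_cast q.pos)
    (by simp) (by rw [← hq]; exact_mod_cast (Rat.num_div_den q).symm)
  have h1 := h (n + 1)
  have h2 : cq x (n + 1) = 0 := by
    change (Int.fract (cq x n))⁻¹ = 0
    rw [h0, inv_zero]
  rw [pq, h2, Int.floor_zero] at h1
  omega

theorem irrational_coth {k : ℕ} (hk : 0 < k) :
    Irrational ((exp (2 / k) + 1) / (exp (2 / k) - 1)) := by
  refine irrational_of_one_le_pq fun n => ?_
  rw [coth_continued_fraction hk n]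
  have : (1 : ℤ) ≤ k := by exact_mod_cast hk
  nlinarith [Int.natCast_nonneg n]

/-- `e ^ (2 / k)` is irrational -/
theorem irrational_exp_two_div {k : ℕ} (hk : 0 < k) : Irrational (exp (2 / k)) := by
  rintro ⟨q, hq⟩
  refine irrational_coth hk ⟨(q + 1) / (q - 1), ?_⟩
  rw [← hq]
  push_cast
  rfl

/-- **`e ^ (2 / k)` is not quadratic** -/
theorem exp_two_div_not_quadratic {k : ℕ} (hk : 0 < k) :
    ¬ ∃ a b c : ℤ, a ≠ 0 ∧ (a : ℝ) * exp (2 / k) ^ 2 + b * exp (2 / k) + c = 0 := by
  rintro ⟨a, b, c, ha, h⟩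
  have hirr := irrational_exp_two_div hk
  have hE : exp (2 / (k : ℝ)) - 1 ≠ 0 := sub_ne_zero.2 (by simpa using hirr.ne_int 1)
  set E := exp (2 / (k : ℝ)) with hEdef
  obtain ⟨y, hy⟩ : ∃ y, y = (E + 1) / (E - 1) := ⟨_, rfl⟩
  have hy1 : y * (E - 1) = E + 1 := by rw [hy]; field_simp
  have habc : a + b + c ≠ 0 := by
    intro h0
    have h1 : (E - 1) * (a * E - c) = 0 := by
      have : (a : ℝ) + b + c = 0 := by exact_mod_cast h0
      linear_combination h - E * this
    rcases mul_eq_zero.1 h1 with h2 | h2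
    · exact hE h2
    · have ha' : (a : ℝ) ≠ 0 := by exact_mod_cast ha
      refine hirr.ne_rational c a ?_
      rw [eq_div_iff ha']
      linarith
  have hquad : ((a + b + c : ℤ) : ℝ) * y ^ 2 + ((2 * (a - c) : ℤ) : ℝ) * y +
      ((a - b + c : ℤ) : ℝ) = 0 := by
    have h2 : (E - 1) ^ 2 * (((a + b + c : ℤ) : ℝ) * y ^ 2 + ((2 * (a - c) : ℤ) : ℝ) * y +
      ((a - b + c : ℤ) : ℝ)) = 0 := by
      push_cast
      have e1 : (E - 1) ^ 2 * (((a : ℝ) + b + c) * y ^ 2 + (2 * (a - c)) * y + (a - b + c)) =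
          (a + b + c) * (y * (E - 1)) ^ 2 + 2 * (a - c) * (y * (E - 1)) * (E - 1) +
            (a - b + c) * (E - 1) ^ 2 := by ring
      rw [e1, hy1]
      linear_combination 4 * h
    rcases mul_eq_zero.1 h2 with h3 | h3
    · exact absurd (pow_eq_zero_iff (two_ne_zero) |>.1 h3) hE
    · exact h3
  obtain ⟨B, hB⟩ := (badly_approximable_iff (irrational_coth hk)).1
    (badly_approximable_of_quad (irrational_coth hk) ⟨_, _, _, habc, by rw [hy] at hquad; exact hquad⟩)
  have h1 := hB B.toNat
  rw [coth_continued_fraction hk] at h1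
  have h2 : (1 : ℤ) ≤ k := by exact_mod_cast hk
  have h3 : B ≤ (B.toNat : ℤ) := Int.self_le_toNat B
  nlinarith [Int.natCast_nonneg B.toNat]

end Fermat.Agent.Cor.CF
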