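import Fermat.Agent.Corollaries.CF.Best
import Mathlib.Analysis.SpecialFunctions.Integrals.Basic

/-!
# The continued fraction of `e`

Euler 1737: `e = [2; 1, 2, 1, 1, 4, 1, 1, 6, 1, 1, 8, …]`. The complete quotients are quotients of
Hermite's integrals.
-/

set_option autoImplicit false

open Real

namespace Fermat.Agent.Cor.CF

/-- Hermite's integrals `∫ t ^ a (1 - t) ^ b e ^ t` over `[0, 1]` -/
noncomputable def herm (a b : ℕ) : ℝ := ∫ t in (0 : ℝ)..1, t ^ a * (1 - t) ^ b * exp t

theorem herm_pos (a b : ℕ) : 0 < herm a b := by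
  refine intervalIntegral.intervalIntegral_pos_of_pos_on ?_ (fun t ht => ?_) one_pos
  · exact (by fun_prop : Continuous fun t : ℝ => t ^ a * (1 - t) ^ b * exp t).intervalIntegrable _ _
  · have h1 : 0 < t := ht.1
    have h2 : 0 < 1 - t := sub_pos.2 ht.2
    positivity

theorem herm_succ_right (a b : ℕ) : herm a (b + 1) = herm a b - herm (a + 1) b := by
  unfold herm
  rw [← intervalIntegral.integral_sub]
  · refine intervalIntegral.integral_congr fun t _ => ?_
    ring
  · exact (by fun_prop : Continuous fun t : ℝ => t ^ a * (1 - t) ^ b * exp t).intervalIntegrable _ _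
  · exact (by fun_prop :
      Continuous fun t : ℝ => t ^ (a + 1) * (1 - t) ^ b * exp t).intervalIntegrable _ _

theorem herm_parts (a b : ℕ) :
    (a + 1) * herm a (b + 1) - (b + 1) * herm (a + 1) b + herm (a + 1) (b + 1) = 0 := by
  have hd : ∀ t ∈ Set.uIcc (0 : ℝ) 1, HasDerivAt
      (fun t : ℝ => t ^ (a + 1) * (1 - t) ^ (b + 1) * exp t)
      ((a + 1) * (t ^ a * (1 - t) ^ (b + 1) * exp t) -
        (b + 1) * (t ^ (a + 1) * (1 - t) ^ b * exp t) +
        t ^ (a + 1) * (1 - t) ^ (b + 1) * exp t) t := by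
    intro t _
    have h1 : HasDerivAt (fun t : ℝ => t ^ (a + 1)) ((a + 1) * t ^ a) t := by
      simpa using hasDerivAt_pow (a + 1) t
    have h2 : HasDerivAt (fun t : ℝ => (1 - t) ^ (b + 1)) (-((b + 1) * (1 - t) ^ b)) t := by
      have h3 : HasDerivAt (fun t : ℝ => 1 - t) (-1) t := by
        simpa using (hasDerivAt_id t).const_sub 1
      have h4 := h3.pow (b + 1)
      refine h4.congr_deriv ?_
      push_cast
      ring
    have h5 := (h1.mul h2).mul (Real.hasDerivAt_exp t)
    refine h5.congr_deriv ?_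
    simp only [Pi.mul_apply]
    ring
  have hi : ∀ a b : ℕ, IntervalIntegrable (fun t : ℝ => t ^ a * (1 - t) ^ b * exp t)
      MeasureTheory.volume 0 1 := fun a b =>
    (by fun_prop : Continuous fun t : ℝ => t ^ a * (1 - t) ^ b * exp t).intervalIntegrable _ _
  have h := intervalIntegral.integral_eq_sub_of_hasDerivAt hd
    ((((hi a (b + 1)).const_mul _).sub ((hi (a + 1) b).const_mul _)).add (hi (a + 1) (b + 1)))
  rw [intervalIntegral.integral_add (((hi a (b + 1)).const_mul _).sub
    ((hi (a + 1) b).const_mul _)) (hi (a + 1) (b + 1)),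
    intervalIntegral.integral_sub ((hi a (b + 1)).const_mul _) ((hi (a + 1) b).const_mul _),
    intervalIntegral.integral_const_mul, intervalIntegral.integral_const_mul] at h
  unfold herm
  rw [h]
  simp

theorem herm_zero : herm 0 0 = exp 1 - 1 := by
  unfold herm
  simp

theorem herm_one : herm 1 0 = 1 := by
  have hd : ∀ t ∈ Set.uIcc (0 : ℝ) 1, HasDerivAt (fun t : ℝ => (t - 1) * exp t)
      (t ^ 1 * (1 - t) ^ 0 * exp t) t := by
    intro t _
    have h5 := ((hasDerivAt_id t).sub_const 1).mul (Real.hasDerivAt_exp t)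
    refine h5.congr_deriv ?_
    simp
    ring
  have h := intervalIntegral.integral_eq_sub_of_hasDerivAt hd
    ((by fun_prop : Continuous fun t : ℝ => t ^ 1 * (1 - t) ^ 0 * exp t).intervalIntegrable _ _)
  unfold herm
  rw [h]
  simp

/-- Hermite's `A`, `B`, `C` -/
noncomputable def hA (n : ℕ) : ℝ := herm n n / n.factorial

/-- Hermite's `A`, `B`, `C` -/
noncomputable def hB (n : ℕ) : ℝ := herm (n + 1) n / n.factorial

/-- Hermite's `A`, `B`, `C` -/
noncomputable def hC (n : ℕ) : ℝ := herm n (n + 1) / n.factorial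

theorem hA_pos (n : ℕ) : 0 < hA n := div_pos (herm_pos _ _) (by positivity)

theorem hB_pos (n : ℕ) : 0 < hB n := div_pos (herm_pos _ _) (by positivity)

theorem hC_pos (n : ℕ) : 0 < hC n := div_pos (herm_pos _ _) (by positivity)

theorem hA_eq (n : ℕ) : hA n = hB n + hC n := by
  have := herm_succ_right n n
  unfold hA hB hC
  rw [this]
  ring

theorem hB_eq (n : ℕ) : hB n = hC n + hA (n + 1) := by
  have h := herm_parts n n
  have hf : (n.factorial : ℝ) ≠ 0 := by positivity
  have hn : (n : ℝ) + 1 ≠ 0 := by positivity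
  unfold hA hB hC
  rw [Nat.factorial_succ]
  push_cast
  field_simp
  linear_combination -h

theorem hC_eq (n : ℕ) : hC n = 2 * (n + 1) * hA (n + 1) + hB (n + 1) := by
  have h := herm_parts n (n + 1)
  have h1 := herm_succ_right n (n + 1)
  have h2 := herm_succ_right (n + 1) (n + 1)
  have hf : (n.factorial : ℝ) ≠ 0 := by positivity
  have hn : (n : ℝ) + 1 ≠ 0 := by positivity
  unfold hA hB hC
  rw [Nat.factorial_succ]
  push_cast at h ⊢
  field_simp
  linear_combination h - (n + 1) * h1 - h2

theorem cf_step {x u v w : ℝ} {k : ℤ} {n : ℕ} (hn : cq x n = u / v) (hv : 0 < v) (hw : 0 < w)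
    (hwv : w < v) (h : u = k * v + w) : pq x n = k ∧ cq x (n + 1) = v / w := by
  have h1 : cq x n = k + w / v := by
    rw [hn, h]
    field_simp
  have h2 : 0 < w / v := div_pos hw hv
  have h3 : w / v < 1 := (div_lt_one hv).2 hwv
  have h4 : ⌊cq x n⌋ = k := by
    rw [h1, Int.floor_eq_iff]
    constructor <;> linarith
  refine ⟨h4, ?_⟩
  change (Int.fract (cq x n))⁻¹ = v / w
  rw [Int.fract, h4, h1, add_sub_cancel_left, inv_div]

theorem cq_exp (n : ℕ) : cq (exp 1) (3 * n + 1) = hB n / hC n := by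
  induction n with
  | zero =>
    have h1 : hB 0 = 1 := by
      unfold hB
      simp [herm_one]
    have h2 : hA 0 = exp 1 - 1 := by
      unfold hA
      simp [herm_zero]
    have h3 := hA_eq 0
    have h4 := hB_eq 0
    have h5 := hA_pos (0 + 1)
    have h6 : cq (exp 1) 0 = exp 1 / hB 0 := by
      rw [h1, div_one]
      rfl
    exact (cf_step (k := 2) h6 (hB_pos 0) (hC_pos 0) (by linarith)
      (by rw [h1] at *; push_cast; linarith)).2
  | succ n ih =>
    have a1 := hA_pos (n + 1)
    have a2 := hB_pos (n + 1)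
    have a3 := hC_pos (n + 1)
    have a4 := hA_pos (n + 2)
    have e1 := hB_eq n
    have e2 := hC_eq n
    have e3 := hA_eq (n + 1)
    have e4 := hB_eq (n + 1)
    have b1 : hA (n + 1) < hC n := by
      rw [e2]
      have : (0 : ℝ) ≤ n := Nat.cast_nonneg n
      nlinarith
    have s1 := cf_step (k := 1) ih (hC_pos n) a1 b1 (by push_cast; linarith)
    have s2 := cf_step (k := 2 * (n + 1)) s1.2 a1 a2 (by linarith) (by push_cast; linarith)
    have s3 := cf_step (k := 1) s2.2 a2 a3 (by linarith) (by push_cast; linarith)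
    exact s3.2

/-- **the continued fraction of `e`** (Euler 1737): `e = [2; 1, 2, 1, 1, 4, 1, 1, 6, 1, …]` -/
theorem exp_continued_fraction : pq (exp 1) 0 = 2 ∧ ∀ n : ℕ, pq (exp 1) (3 * n + 1) = 1 ∧
    pq (exp 1) (3 * n + 2) = 2 * (n + 1) ∧ pq (exp 1) (3 * n + 3) = 1 := by
  refine ⟨?_, fun n => ?_⟩
  · have h1 : hB 0 = 1 := by
      unfold hB
      simp [herm_one]
    have h2 : hA 0 = exp 1 - 1 := by
      unfold hA
      simp [herm_zero]
    have h3 := hA_eq 0
    have h4 := hB_eq 0
    have h5 := hA_pos (0 + 1)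
    have h6 : cq (exp 1) 0 = exp 1 / hB 0 := by
      rw [h1, div_one]
      rfl
    exact (cf_step (k := 2) h6 (hB_pos 0) (hC_pos 0) (by linarith)
      (by rw [h1] at *; push_cast; linarith)).1
  · have a1 := hA_pos (n + 1)
    have a2 := hB_pos (n + 1)
    have a3 := hC_pos (n + 1)
    have a4 := hA_pos (n + 2)
    have e1 := hB_eq n
    have e2 := hC_eq n
    have e3 := hA_eq (n + 1)
    have e4 := hB_eq (n + 1)
    have b1 : hA (n + 1) < hC n := by
      rw [e2]
      have : (0 : ℝ) ≤ n := Nat.cast_nonneg n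
      nlinarith
    have s1 := cf_step (k := 1) (cq_exp n) (hC_pos n) a1 b1 (by push_cast; linarith)
    have s2 := cf_step (k := 2 * (n + 1)) s1.2 a1 a2 (by linarith) (by push_cast; linarith)
    have s3 := cf_step (k := 1) s2.2 a2 a3 (by linarith) (by push_cast; linarith)
    exact ⟨s1.1, s2.1, s3.1⟩

/-- the denominators of a rational number decrease along its continued fraction -/
theorem exists_cq_le_of_rat (N : ℕ) : ∀ (x : ℝ) (a b : ℤ), 0 < b → b.toNat ≤ N → x = a / b →
    ∃ n, n ≤ N ∧ Int.fract (cq x n) = 0 := by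
  induction N with
  | zero =>
    intro x a b hb hN _
    omega
  | succ N ih =>
    intro x a b hb hN hx
    have hb0 : (b : ℝ) ≠ 0 := by exact_mod_cast hb.ne'
    have hfr : Int.fract x = ((a % b : ℤ) : ℝ) / b := by
      have h1 : (a : ℝ) = b * (a / b : ℤ) + (a % b : ℤ) := by
        exact_mod_cast (Int.mul_ediv_add_emod a b).symm
      have h2 : x = (a / b : ℤ) + ((a % b : ℤ) : ℝ) / b := by
        rw [hx]
        field_simp
        linarith
      have h3 : (0 : ℝ) ≤ ((a % b : ℤ) : ℝ) / b :=
        div_nonneg (by exact_mod_cast Int.emod_nonneg a hb.ne') (by exact_mod_cast hb.le)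
      have h4 : ((a % b : ℤ) : ℝ) / b < 1 :=
        (div_lt_one (by exact_mod_cast hb)).2 (by exact_mod_cast Int.emod_lt_of_pos a hb)
      rw [h2, Int.fract_intCast_add, Int.fract_eq_self.2 ⟨h3, h4⟩]
    rcases (Int.emod_nonneg a hb.ne').eq_or_lt with h0 | h0
    · exact ⟨0, Nat.zero_le _, by change Int.fract x = 0; rw [hfr, ← h0]; simp⟩
    · have h1 := Int.emod_lt_of_pos a hb
      obtain ⟨n, hn, h⟩ := ih (cq x 1) b (a % b) h0 (by omega) (by
        change (Int.fract x)⁻¹ = _
        rw [hfr, inv_div])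
      refine ⟨1 + n, by omega, ?_⟩
      rw [cq_add]
      exact h

/-- `e` is irrational -/
theorem irrational_exp_one : Irrational (exp 1) := by
  rintro ⟨q, hq⟩
  obtain ⟨n, -, h⟩ := exists_cq_le_of_rat q.den (exp 1) q.num q.den (by exact_mod_cast q.pos)
    (by simp) (by rw [← hq]; exact_mod_cast (Rat.num_div_den q).symm)
  -- the continued fraction would stop
  have hz : ∀ m, cq (exp 1) (n + 1 + m) = 0 := by
    intro m
    induction m with
    | zero =>
      change (Int.fract (cq (exp 1) n))⁻¹ = 0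
      rw [h, inv_zero]
    | succ m ih =>
      change (Int.fract (cq (exp 1) (n + 1 + m)))⁻¹ = 0
      rw [ih, Int.fract_zero, inv_zero]
  have h1 := hz (2 * n)
  have h2 : n + 1 + 2 * n = 3 * n + 1 := by ring
  rw [h2, cq_exp] at h1
  exact (div_pos (hB_pos n) (hC_pos n)).ne' h1

/-- **`e` is not a root of a quadratic equation** with integer coefficients (Euler 1737 with
Lagrange's theorem): its partial quotients are not periodic. -/
theorem exp_one_not_quadratic :
    ¬ ∃ a b c : ℤ, a ≠ 0 ∧ (a : ℝ) * exp 1 ^ 2 + b * exp 1 + c = 0 := by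
  intro h
  obtain ⟨B, hB⟩ := (badly_approximable_iff irrational_exp_one).1
    (badly_approximable_of_quad irrational_exp_one h)
  have h1 := hB (3 * B.toNat + 2)
  rw [(exp_continued_fraction.2 B.toNat).2.1] at h1
  omega

/-- **`e` is not badly approximable**: for every `c > 0` there is a fraction with
`|e - p / q| < c / q ^ 2`. -/
theorem exp_one_not_badly {c : ℝ} (hc : 0 < c) :
    ∃ p q : ℤ, 0 < q ∧ |exp 1 - p / q| < c / (q : ℝ) ^ 2 := by
  by_contra hcon
  push Not at hcon
  obtain ⟨B, hB⟩ := (badly_approximable_iff irrational_exp_one).1 ⟨c, hc, hcon⟩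
  have h1 := hB (3 * B.toNat + 2)
  rw [(exp_continued_fraction.2 B.toNat).2.1] at h1
  omega

end Fermat.Agent.Cor.CF
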