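import Fermat.Agent.Corollaries.CF.Lagrange

/-!
# Galois's theorem on purely periodic continued fractions

The continued fraction of a quadratic irrational number `x` is purely periodic if and only if `x` is
reduced: `1 < x` and `-1 < x' < 0` for the conjugate `x'` (É. Galois 1829). The continued fraction of
`√d` is periodic after the first partial quotient.
-/

set_option autoImplicit false

namespace Fermat.Agent.Cor.CF

variable {x : ℝ}

/-- `y` is the conjugate of the quadratic number `x` (the other root of the equation) -/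
def IsConj (x y : ℝ) : Prop :=
  ∃ a b c : ℤ, a ≠ 0 ∧ (a : ℝ) * x ^ 2 + b * x + c = 0 ∧ (a : ℝ) * (x + y) + b = 0

theorem IsConj.unique (hx : Irrational x) {y y' : ℝ} (h : IsConj x y) (h' : IsConj x y') :
    y = y' := by
  obtain ⟨a, b, c, ha, h1, h2⟩ := h
  obtain ⟨a', b', c', ha', h1', h2'⟩ := h'
  have e1 : ((a' * b - a * b' : ℤ) : ℝ) * x + ((a' * c - a * c' : ℤ) : ℝ) = 0 := by
    push_cast
    linear_combination (a' : ℝ) * h1 - (a : ℝ) * h1'
  have e2 : a' * b - a * b' = 0 := by
    by_contra hne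
    have hne' : ((a' * b - a * b' : ℤ) : ℝ) ≠ 0 := by exact_mod_cast hne
    refine hx.ne_rational (-(a' * c - a * c')) (a' * b - a * b') ?_
    rw [eq_div_iff hne', Int.cast_neg]
    linear_combination e1
  have e3 : (a' : ℝ) * b - a * b' = 0 := by exact_mod_cast e2
  have ha0 : (a : ℝ) ≠ 0 := by exact_mod_cast ha
  have ha0' : (a' : ℝ) ≠ 0 := by exact_mod_cast ha'
  have e4 : (a : ℝ) * a' * (y - y') = 0 := by
    linear_combination (a' : ℝ) * h2 - (a : ℝ) * h2' - e3
  have e5 := (mul_eq_zero.1 e4).resolve_left (mul_ne_zero ha0 ha0')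
  linarith

theorem IsConj.succ (hx : Irrational x) {y : ℝ} (n : ℕ) (h : IsConj (cq x n) y) :
    IsConj (cq x (n + 1)) (1 / (y - pq x n)) := by
  obtain ⟨a, b, c, ha, h1, h2⟩ := h
  have hz := irrational_cq hx n
  have hw := cq_succ hx n
  have ha0 : (a : ℝ) ≠ 0 := by exact_mod_cast ha
  set z := cq x n with hzdef
  set w := cq x (n + 1) with hwdef
  set q := pq x n with hq
  have hzq : z - q ≠ 0 := fun h0 => by rw [h0, zero_mul] at hw; norm_num at hw
  have hyq : y - q ≠ 0 := by
    intro h0
    refine hz.ne_rational (-b - a * q) a ?_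
    rw [eq_div_iff ha0]
    push_cast
    have : y = q := by linarith
    rw [this] at h2
    linear_combination h2
  have hw' : w = 1 / (z - q) := by
    rw [eq_div_iff hzq]
    linear_combination hw
  have hA : ((a * q ^ 2 + b * q + c : ℤ) : ℝ) = a * ((z - q) * (y - q)) := by
    push_cast
    linear_combination (q - z) * h2 + h1
  refine ⟨a * q ^ 2 + b * q + c, 2 * a * q + b, a, ?_, ?_, ?_⟩
  · intro h0
    rw [h0, Int.cast_zero] at hA
    exact mul_ne_zero ha0 (mul_ne_zero hzq hyq) hA.symm
  · rw [hA, hw']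
    push_cast
    field_simp
    linear_combination h2
  · rw [hA, hw']
    push_cast
    field_simp
    linear_combination h2

/-- the conjugates of the complete quotients -/
noncomputable def cj (x y : ℝ) : ℕ → ℝ
  | 0 => y
  | n + 1 => 1 / (cj x y n - pq x n)

theorem isConj_cj (hx : Irrational x) {y : ℝ} (h : IsConj x y) (n : ℕ) :
    IsConj (cq x n) (cj x y n) := by
  induction n with
  | zero => exact h
  | succ n ih => exact ih.succ hx n

theorem cj_reduced {y : ℝ} (n : ℕ) (hq : 1 ≤ pq x n) (h : cj x y n < 0) :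
    -1 < cj x y (n + 1) ∧ cj x y (n + 1) < 0 := by
  have hq' : (1 : ℝ) ≤ pq x n := by exact_mod_cast hq
  have h1 : cj x y n - pq x n < -1 := by linarith
  have e : cj x y (n + 1) = 1 / (cj x y n - pq x n) := rfl
  rw [e]
  constructor
  · rw [lt_div_iff_of_neg (by linarith)]
    linarith
  · exact one_div_neg.2 (by linarith)

theorem exists_cj_neg (hx : Irrational x) {y : ℝ} (h : IsConj x y) :
    ∃ n, cj x y (n + 1) < 0 := by
  have h' := h
  obtain ⟨a, b, c, ha, h1, h2⟩ := h'
  obtain ⟨n, hn⟩ := exists_quad_neg hx ha h1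
  refine ⟨n, ?_⟩
  have h3 := quad_root hx h1 (n + 1)
  have h4 := quad_ne_zero hx ha h1 (n + 1)
  set A := (quad x a b c (n + 1)).1 with hA
  set B := (quad x a b c (n + 1)).2.1 with hB
  set C := (quad x a b c (n + 1)).2.2 with hC
  have hA0 : (A : ℝ) ≠ 0 := by exact_mod_cast h4
  have hz := one_lt_cq hx n
  have h5 : cj x y (n + 1) = -B / A - cq x (n + 1) := by
    refine IsConj.unique (irrational_cq hx (n + 1)) (isConj_cj hx h (n + 1)) ⟨A, B, C, h4, h3, ?_⟩
    field_simp
    ring
  have h6 : (A : ℝ) ^ 2 * (cq x (n + 1) * cj x y (n + 1)) = A * C := by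
    rw [h5]
    have : (A : ℝ) * (-B / A) = -B := by field_simp
    linear_combination (A : ℝ) * cq x (n + 1) * this + (-(A : ℝ)) * h3
  have h7 : (A : ℝ) * C < 0 := by exact_mod_cast hn
  by_contra hcon
  have h8 : 0 ≤ (A : ℝ) ^ 2 * (cq x (n + 1) * cj x y (n + 1)) :=
    mul_nonneg (sq_nonneg _) (mul_nonneg (by linarith) (not_lt.1 hcon))
  linarith

/-- **Galois 1829**, first half: a purely periodic continued fraction is reduced. -/
theorem reduced_of_periodic (hx : Irrational x) {y : ℝ} (h : IsConj x y) {p : ℕ} (hp : 0 < p)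
    (hper : ∀ n, pq x (n + p) = pq x n) : 1 < x ∧ -1 < y ∧ y < 0 := by
  have h1 : cq x p = x := by
    refine eq_of_pq_eq (irrational_cq hx p) hx fun n => ?_
    rw [← pq_add, add_comm, hper]
  have h2 : ∀ k, cq x (k * p) = x := by
    intro k
    induction k with
    | zero => rw [zero_mul]; rfl
    | succ k ih => rw [Nat.succ_mul, cq_add, ih, h1]
  have hx1 : 1 < x := by
    obtain ⟨m, rfl⟩ : ∃ m, p = m + 1 := ⟨p - 1, by omega⟩
    rw [← h1]
    exact one_lt_cq hx m
  obtain ⟨N, hN⟩ := exists_cj_neg hx h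
  have h3 : ∀ n, -1 < cj x y (N + 2 + n) ∧ cj x y (N + 2 + n) < 0 := by
    intro n
    induction n with
    | zero => exact cj_reduced (N + 1) (one_le_pq hx N) hN
    | succ n ih =>
      refine cj_reduced (N + 2 + n) ?_ ih.2
      rw [show N + 2 + n = N + 1 + n + 1 by ring]
      exact one_le_pq hx _
  have h4 : N + 2 ≤ (N + 2) * p := Nat.le_mul_of_pos_right _ hp
  obtain ⟨k, hk⟩ := Nat.exists_eq_add_of_le h4
  have h5 : cj x y ((N + 2) * p) = y := by
    have h6 := isConj_cj hx h ((N + 2) * p)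
    rw [h2] at h6
    exact IsConj.unique hx h6 h
  have h6 := h3 k
  rw [← hk, h5] at h6
  exact ⟨hx1, h6⟩

/-- **Galois 1829**, second half: the continued fraction of a reduced number is purely
periodic. -/
theorem periodic_of_reduced (hx : Irrational x) {y : ℝ} (h : IsConj x y) (hx1 : 1 < x)
    (hy1 : -1 < y) (hy0 : y < 0) : ∃ p : ℕ, 0 < p ∧ ∀ n, pq x (n + p) = pq x n := by
  have hpq : ∀ n, 1 ≤ pq x n := by
    intro n
    rcases n with _ | n
    · exact Int.le_floor.2 (by exact_mod_cast hx1.le)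
    · exact one_le_pq hx n
  have hred : ∀ n, -1 < cj x y n ∧ cj x y n < 0 := by
    intro n
    induction n with
    | zero => exact ⟨hy1, hy0⟩
    | succ n ih => exact cj_reduced n (hpq n) ih.2
  -- the partial quotient is determined by the next conjugate
  have hdet : ∀ n, pq x n = ⌊-(1 / cj x y (n + 1))⌋ := by
    intro n
    have e : -(1 / cj x y (n + 1)) = pq x n - cj x y n := by
      have e1 : cj x y (n + 1) = 1 / (cj x y n - pq x n) := rfl
      rw [e1, one_div_one_div]
      ring
    rw [e, eq_comm, Int.floor_eq_iff]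
    constructor <;> linarith [(hred n).1, (hred n).2]
  obtain ⟨a, b, c, ha, h1, -⟩ := id h
  obtain ⟨N, p, hp, hper⟩ := periodic_of_isQuad hx ⟨a, b, c, ha, h1⟩
  have hN : cq x (N + p) = cq x N := by
    refine eq_of_pq_eq (irrational_cq hx _) (irrational_cq hx _) fun n => ?_
    rw [← pq_add, ← pq_add, show N + p + n = N + n + p by ring]
    exact hper _ (by omega)
  have hdesc : ∀ n, cq x (n + 1 + p) = cq x (n + 1) → cq x (n + p) = cq x n := by
    intro n hn
    have e1 : cj x y (n + p + 1) = cj x y (n + 1) := by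
      have e2 := isConj_cj hx h (n + p + 1)
      rw [show n + p + 1 = n + 1 + p by ring, hn] at e2
      rw [show n + p + 1 = n + 1 + p by ring]
      exact IsConj.unique (irrational_cq hx _) e2 (isConj_cj hx h (n + 1))
    have e2 : pq x (n + p) = pq x n := by rw [hdet, hdet n, e1]
    have e3 := cq_succ hx (n + p)
    have e4 := cq_succ hx n
    rw [show n + p + 1 = n + 1 + p by ring, hn, e2] at e3
    have e5 : cq x (n + 1) ≠ 0 := by linarith [one_lt_cq hx n]
    have e6 : (cq x (n + p) - cq x n) * cq x (n + 1) = 0 := by linear_combination e3 - e4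
    have e7 := (mul_eq_zero.1 e6).resolve_right e5
    linarith
  have h0 : ∀ k ≤ N, cq x (N - k + p) = cq x (N - k) := by
    intro k
    induction k with
    | zero => intro _; exact hN
    | succ k ih =>
      intro hk
      refine hdesc (N - (k + 1)) ?_
      rw [show N - (k + 1) + 1 = N - k by omega]
      exact ih (by omega)
  have h1 := h0 N le_rfl
  rw [Nat.sub_self, zero_add] at h1
  refine ⟨p, hp, fun n => ?_⟩
  rw [add_comm, pq_add, h1]
  rfl

/-- **Galois's theorem** (1829): the continued fraction of the irrational root `x` of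
`a X² + b X + c` is purely periodic if and only if `1 < x` and `-1 < x' < 0`, where
`x' = -b / a - x` is the other root. -/
theorem purely_periodic_iff (hx : Irrational x) {a b c : ℤ} (ha : a ≠ 0)
    (h : (a : ℝ) * x ^ 2 + b * x + c = 0) :
    (∃ p : ℕ, 0 < p ∧ ∀ n, pq x (n + p) = pq x n) ↔
      1 < x ∧ -1 < -b / a - x ∧ -b / a - x < 0 := by
  have ha0 : (a : ℝ) ≠ 0 := by exact_mod_cast ha
  have hc : IsConj x (-b / a - x) := ⟨a, b, c, ha, h, by field_simp; ring⟩
  exact ⟨fun ⟨_, hp, hper⟩ => reduced_of_periodic hx hc hp hper,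
    fun ⟨h1, h2, h3⟩ => periodic_of_reduced hx hc h1 h2 h3⟩

/-- The continued fraction of `√d` is periodic after the first partial quotient, and the last
partial quotient of the period is twice the first one. -/
theorem sqrt_periodic {d : ℕ} (hd : ¬ IsSquare d) : ∃ p : ℕ, 0 < p ∧
    (∀ n, pq √(d : ℝ) (n + 1 + p) = pq √(d : ℝ) (n + 1)) ∧
      pq √(d : ℝ) p = 2 * pq √(d : ℝ) 0 := by
  have hx : Irrational √(d : ℝ) := irrational_sqrt_natCast_iff.2 hd
  set a := pq √(d : ℝ) 0 with ha
  have hfl : a = ⌊√(d : ℝ)⌋ := rfl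
  have h1 : (a : ℝ) ≤ √(d : ℝ) := Int.floor_le _
  have h2 : √(d : ℝ) < a + 1 := Int.lt_floor_add_one _
  have h3 : (a : ℝ) < √(d : ℝ) := lt_of_le_of_ne h1 fun h0 => hx ⟨a, by rw [← h0]; simp⟩
  have hd1 : 1 ≤ d := by
    rcases Nat.eq_zero_or_pos d with h0 | h0
    · exact absurd ⟨0, h0⟩ hd
    · exact h0
  have ha1 : (1 : ℝ) ≤ a := by
    have : (1 : ℤ) ≤ a := by
      rw [hfl, Int.le_floor]
      push_cast
      rw [Real.one_le_sqrt]
      exact_mod_cast hd1
    exact_mod_cast this
  set y : ℝ := √(d : ℝ) + a with hy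
  have hyi : Irrational y := hx.add_intCast a
  have hsq : √(d : ℝ) ^ 2 = d := Real.sq_sqrt (Nat.cast_nonneg d)
  have hconj : IsConj y (a - √(d : ℝ)) := by
    refine ⟨1, -(2 * a), a ^ 2 - d, one_ne_zero, ?_, ?_⟩
    · push_cast
      rw [hy]
      linear_combination hsq
    · push_cast
      rw [hy]
      ring
  obtain ⟨p, hp, hper⟩ := periodic_of_reduced hyi hconj (by linarith) (by linarith) (by linarith)
  have hfr : Int.fract y = Int.fract √(d : ℝ) := Int.fract_add_intCast _ _
  have hcq : cq y 1 = cq √(d : ℝ) 1 := by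
    change (Int.fract y)⁻¹ = (Int.fract √(d : ℝ))⁻¹
    rw [hfr]
  have hcq' : ∀ n, pq y (n + 1) = pq √(d : ℝ) (n + 1) := by
    intro n
    rw [add_comm, pq_add, hcq, ← pq_add]
  refine ⟨p, hp, fun n => ?_, ?_⟩
  · rw [show n + 1 + p = n + p + 1 by ring, ← hcq', ← hcq', ← hper (n + 1)]
    congr 1
    ring
  · obtain ⟨m, rfl⟩ : ∃ m, p = m + 1 := ⟨p - 1, by omega⟩
    have h4 := hper 0
    rw [zero_add] at h4
    rw [← hcq' m, h4]
    change ⌊√(d : ℝ) + a⌋ = 2 * a
    rw [Int.floor_add_intCast, ← hfl]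
    ring

end Fermat.Agent.Cor.CF
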