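import Fermat.Agent.Corollaries.CF.Lagrange

/-!
# Hurwitz's theorem

For every irrational real number `x` there are infinitely many rational numbers `p / q` with
`|x - p / q| < 1 / (√5 q²)` (A. Hurwitz 1891), and the constant `√5` is the best possible one: for
the golden ratio and `c > √5` there are only finitely many `p / q` with `|φ - p / q| < 1 / (c q²)`.
-/

set_option autoImplicit false

namespace Fermat.Agent.Cor.CF

variable {x : ℝ}

/-- the numerators of the convergents, `num x 1 = a₀` -/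
noncomputable def num (x : ℝ) : ℕ → ℤ
  | 0 => 1
  | 1 => pq x 0
  | n + 2 => pq x (n + 1) * num x (n + 1) + num x n

/-- the denominators of the convergents, `den x 1 = 1` -/
noncomputable def den (x : ℝ) : ℕ → ℤ
  | 0 => 0
  | 1 => 1
  | n + 2 => pq x (n + 1) * den x (n + 1) + den x n

theorem den_succ_succ (x : ℝ) (n : ℕ) :
    den x (n + 2) = pq x (n + 1) * den x (n + 1) + den x n := rfl

theorem num_succ_succ (x : ℝ) (n : ℕ) :
    num x (n + 2) = pq x (n + 1) * num x (n + 1) + num x n := rfl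

theorem one_le_den (hx : Irrational x) (n : ℕ) : 0 ≤ den x n ∧ 1 ≤ den x (n + 1) := by
  induction n with
  | zero => exact ⟨le_rfl, le_rfl⟩
  | succ n ih =>
    have h1 := one_le_pq hx n
    have h2 := den_succ_succ x n
    refine ⟨by omega, ?_⟩
    rw [show n + 1 + 1 = n + 2 from rfl, h2]
    nlinarith [ih.1, ih.2]

theorem le_den (hx : Irrational x) (n : ℕ) : (n : ℤ) ≤ den x (n + 1) := by
  induction n with
  | zero => exact (by norm_num : (0 : ℤ) ≤ 1)
  | succ n ih =>
    rcases n with _ | m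
    · simpa using (one_le_den hx 1).2
    · have h1 := one_le_pq hx (m + 1)
      have h2 := den_succ_succ x (m + 1)
      have h3 := (one_le_den hx m).2
      rw [show m + 1 + 1 + 1 = m + 1 + 2 from rfl, h2]
      rw [show m + 1 + 1 = m + 2 from rfl] at *
      push_cast at ih ⊢
      nlinarith

theorem det (x : ℝ) (n : ℕ) :
    num x (n + 1) * den x n - num x n * den x (n + 1) = (-1) ^ (n + 1) := by
  induction n with
  | zero => simp [num, den]
  | succ n ih =>
    rw [show n + 1 + 1 = n + 2 from rfl, den_succ_succ, num_succ_succ, pow_succ, ← ih]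
    ring

theorem isCoprime_num_den (x : ℝ) (n : ℕ) : IsCoprime (num x (n + 1)) (den x (n + 1)) := by
  have h := det x n
  refine ⟨(-1) ^ (n + 1) * den x n, -(-1) ^ (n + 1) * num x n, ?_⟩
  have h1 : ((-1 : ℤ) ^ (n + 1)) * (-1) ^ (n + 1) = 1 := by
    rw [← mul_pow]; norm_num
  linear_combination (-1) ^ (n + 1) * h + h1

theorem main_eq (hx : Irrational x) (n : ℕ) :
    x * (den x (n + 1) * cq x (n + 1) + den x n) = num x (n + 1) * cq x (n + 1) + num x n := by
  induction n with
  | zero =>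
    have h := cq_succ hx 0
    simp only [num, den]
    push_cast
    rw [show cq x 0 = x from rfl] at h
    linear_combination h
  | succ n ih =>
    have h := cq_succ hx (n + 1)
    rw [show n + 1 + 1 = n + 2 from rfl, den_succ_succ, num_succ_succ] at *
    push_cast
    linear_combination cq x (n + 2) * ih + (num x (n + 1) - x * den x (n + 1)) * h

/-- the approximation constant of the convergent -/
noncomputable def lam (x : ℝ) (n : ℕ) : ℝ := cq x (n + 1) + den x n / den x (n + 1)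

theorem lam_pos (hx : Irrational x) (n : ℕ) : 0 < lam x n := by
  have h1 := one_lt_cq hx n
  have h2 : (0 : ℝ) ≤ den x n := by exact_mod_cast (one_le_den hx n).1
  have h3 : (1 : ℝ) ≤ den x (n + 1) := by exact_mod_cast (one_le_den hx n).2
  unfold lam
  positivity

theorem abs_sub_eq (hx : Irrational x) (n : ℕ) :
    |x - num x (n + 1) / den x (n + 1)| = 1 / (lam x n * (den x (n + 1) : ℝ) ^ 2) := by
  have h1 := one_lt_cq hx n
  have h2 : (0 : ℝ) ≤ den x n := by exact_mod_cast (one_le_den hx n).1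
  have h3 : (1 : ℝ) ≤ den x (n + 1) := by exact_mod_cast (one_le_den hx n).2
  have h4 := main_eq hx n
  have h5 : (num x (n + 1) : ℝ) * den x n - num x n * den x (n + 1) = (-1) ^ (n + 1) := by
    exact_mod_cast det x n
  set q : ℝ := ((den x (n + 1) : ℤ) : ℝ) with hq
  set q' : ℝ := ((den x n : ℤ) : ℝ) with hq'
  set p : ℝ := ((num x (n + 1) : ℤ) : ℝ) with hp
  set p' : ℝ := ((num x n : ℤ) : ℝ) with hp'
  set ξ := cq x (n + 1) with hξ
  have hden : 0 < q * ξ + q' := by positivity
  have h6 : x - p / q = -(-1) ^ (n + 1) / (q * (q * ξ + q')) := by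
    rw [← h5]
    field_simp
    linear_combination q * h4
  have h7 : lam x n * q ^ 2 = q * (q * ξ + q') := by
    rw [lam, ← hξ, ← hq, ← hq']
    field_simp
  rw [h6, h7, abs_div, abs_neg, abs_pow, abs_neg, abs_one, one_pow,
    abs_of_pos (mul_pos (by linarith) hden)]

theorem inv_psi (hx : Irrational x) (n : ℕ) : (den x (n + 2) : ℝ) / den x (n + 1) =
    pq x (n + 1) + den x n / den x (n + 1) := by
  have h3 : (1 : ℝ) ≤ den x (n + 1) := by exact_mod_cast (one_le_den hx n).2
  rw [den_succ_succ]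
  push_cast
  field_simp

theorem lam_eq (hx : Irrational x) (n : ℕ) :
    lam x n = (den x (n + 2) : ℝ) / den x (n + 1) + 1 / cq x (n + 2) := by
  have h1 := cq_succ hx (n + 1)
  have h2 := one_lt_cq hx (n + 1)
  have h3 : 1 / cq x (n + 2) = cq x (n + 1) - pq x (n + 1) := by
    rw [div_eq_iff (by linarith)]
    exact h1.symm
  rw [inv_psi hx, h3, lam]
  ring

theorem lt_psi (hx : Irrational x) (n : ℕ) (h0 : lam x n ≤ √5) (h1 : lam x (n + 1) ≤ √5) :
    (√5 - 1) / 2 < (den x (n + 1) : ℝ) / den x (n + 2) := by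
  have h2 := lam_eq hx n
  have h3 : lam x (n + 1) = cq x (n + 2) + den x (n + 1) / den x (n + 2) := rfl
  have h4 : (1 : ℝ) ≤ den x (n + 1) := by exact_mod_cast (one_le_den hx n).2
  have h5 : (1 : ℝ) ≤ den x (n + 2) := by exact_mod_cast (one_le_den hx (n + 1)).2
  have h6 := one_lt_cq hx (n + 1)
  rw [show n + 1 + 1 = n + 2 from rfl] at h6
  set ξ := cq x (n + 2) with hξ
  set ψ : ℝ := (den x (n + 1) : ℝ) / den x (n + 2) with hψ
  have hψ0 : 0 < ψ := by positivity
  have h7 : (den x (n + 2) : ℝ) / den x (n + 1) = 1 / ψ := by rw [hψ, one_div_div]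
  rw [h7] at h2
  rw [h2] at h0
  rw [h3] at h1
  have h8 : (√5 : ℝ) ^ 2 = 5 := Real.sq_sqrt (by norm_num)
  have h9 : 0 < (√5 : ℝ) := Real.sqrt_pos.2 (by norm_num)
  have hξ0 : 0 < ξ := by linarith
  have h10 : 1 ≤ (√5 - ψ) * (√5 - 1 / ψ) := by
    have e1 : ξ ≤ √5 - ψ := by linarith
    have e2 : 1 / ξ ≤ √5 - 1 / ψ := by linarith
    have e3 : ξ * (1 / ξ) = 1 := by field_simp
    calc (1 : ℝ) = ξ * (1 / ξ) := e3.symm
      _ ≤ _ := mul_le_mul e1 e2 (by positivity) (by linarith)
  have h11 : ψ ^ 2 - √5 * ψ + 1 ≤ 0 := by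
    have e1 : (√5 - ψ) * (√5 - 1 / ψ) * ψ = (5 + 1) * ψ - √5 * ψ ^ 2 - √5 := by
      field_simp
      linear_combination ψ * h8
    have e2 : 1 * ψ ≤ (√5 - ψ) * (√5 - 1 / ψ) * ψ := mul_le_mul_of_nonneg_right h10 hψ0.le
    rw [e1] at e2
    have e3 : √5 * (ψ ^ 2 - √5 * ψ + 1) ≤ 0 := by nlinarith
    by_contra h
    exact absurd (mul_pos h9 (not_le.1 h)) (not_lt.2 e3)
  by_contra hcon
  have h12 : ψ ≤ (√5 - 1) / 2 := not_lt.1 hcon
  have h13 : (ψ - (√5 - 1) / 2) * (ψ - (√5 + 1) / 2) ≤ 0 := by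
    have : (ψ - (√5 - 1) / 2) * (ψ - (√5 + 1) / 2) = ψ ^ 2 - √5 * ψ + 1 := by
      linear_combination (1 / 4) * h8
    rw [this]; exact h11
  have h14 : ψ = (√5 - 1) / 2 := by
    refine le_antisymm h12 ?_
    by_contra h
    have e1 : 0 < (ψ - (√5 - 1) / 2) * (ψ - (√5 + 1) / 2) :=
      mul_pos_of_neg_of_neg (by linarith [not_le.1 h]) (by linarith [not_le.1 h])
    linarith
  have h15 : Irrational (√5 : ℝ) := by
    have := Nat.Prime.irrational_sqrt (show Nat.Prime 5 by norm_num)
    simpa using this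
  refine h15.ne_rational (2 * den x (n + 1) + den x (n + 2)) (den x (n + 2)) ?_
  have h16 : (den x (n + 2) : ℝ) ≠ 0 := by linarith
  have h17 : √5 = 2 * ψ + 1 := by linarith
  rw [h17, hψ]
  push_cast
  field_simp

/-- among three consecutive convergents one is good -/
theorem exists_lam (hx : Irrational x) (n : ℕ) : ∃ k, n ≤ k ∧ √5 < lam x k := by
  by_contra hcon
  push Not at hcon
  have h1 := lt_psi hx n (hcon n le_rfl) (hcon (n + 1) (by omega))
  have h2 := lt_psi hx (n + 1) (hcon (n + 1) (by omega)) (hcon (n + 1 + 1) (by omega))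
  have h3 := inv_psi hx (n + 1)
  rw [show n + 1 + 1 = n + 2 from rfl, show n + 1 + 2 = n + 3 from rfl] at h2 h3
  have h4 : (1 : ℝ) ≤ pq x (n + 2) := by exact_mod_cast one_le_pq hx (n + 1)
  have h5 : (1 : ℝ) ≤ den x (n + 2) := by exact_mod_cast (one_le_den hx (n + 1)).2
  have h6 : (1 : ℝ) ≤ den x (n + 3) := by exact_mod_cast (one_le_den hx (n + 2)).2
  have h8 : (√5 : ℝ) ^ 2 = 5 := Real.sq_sqrt (by norm_num)
  have h9 : 2 < (√5 : ℝ) := by
    rw [Real.lt_sqrt (by norm_num)]; norm_num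
  have h10 : (den x (n + 3) : ℝ) / den x (n + 2) < (√5 + 1) / 2 := by
    rw [lt_div_iff₀ (by linarith)] at h2
    rw [div_lt_iff₀ (by linarith)]
    nlinarith
  linarith

/-- **Hurwitz 1891**. -/
theorem exists_hurwitz (hx : Irrational x) (M : ℕ) : ∃ p q : ℤ, (M : ℤ) ≤ q ∧ 0 < q ∧
    IsCoprime p q ∧ |x - p / q| < 1 / (√5 * (q : ℝ) ^ 2) := by
  obtain ⟨k, hk, hlam⟩ := exists_lam hx M
  have h1 := (one_le_den hx k).2
  have h2 := le_den hx k
  refine ⟨num x (k + 1), den x (k + 1), by omega, by omega, isCoprime_num_den x k, ?_⟩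
  rw [abs_sub_eq hx]
  have h3 : (1 : ℝ) ≤ den x (k + 1) := by exact_mod_cast h1
  have h9 : 0 < (√5 : ℝ) := Real.sqrt_pos.2 (by norm_num)
  refine one_div_lt_one_div_of_lt (by positivity) ?_
  exact mul_lt_mul_of_pos_right hlam (by positivity)

/-- **Hurwitz's theorem** (1891): every irrational number `x` has infinitely many rational
approximations `r` with `|x - r| < 1 / (√5 (den r)²)`. -/
theorem hurwitz (hx : Irrational x) :
    {r : ℚ | |x - r| < 1 / (√5 * (r.den : ℝ) ^ 2)}.Infinite := by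
  intro hfin
  obtain ⟨M, hM⟩ := (hfin.image (fun r : ℚ => r.den)).bddAbove
  obtain ⟨p, q, hMq, hq, hpq, h⟩ := exists_hurwitz hx (M + 1)
  have h1 : (((p / q : ℚ).den : ℕ) : ℤ) = q :=
    Rat.den_div_eq_of_coprime hq (Int.isCoprime_iff_gcd_eq_one.1 hpq)
  have h2 : (p / q : ℚ) ∈ {r : ℚ | |x - r| < 1 / (√5 * (r.den : ℝ) ^ 2)} := by
    change |x - ((p / q : ℚ) : ℝ)| < 1 / (√5 * (((p / q : ℚ).den : ℕ) : ℝ) ^ 2)
    have h3 : (((p / q : ℚ).den : ℕ) : ℝ) = (q : ℝ) := by exact_mod_cast congrArg (Int.cast : ℤ → ℝ) h1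
    rw [h3]
    push_cast
    exact h
  have h3 : (p / q : ℚ).den ≤ M := hM ⟨_, h2, rfl⟩
  omega

open Real in
/-- The constant `√5` is the best possible: for the golden ratio and `c > √5` there are only
finitely many rational approximations `r` with `|φ - r| < 1 / (c (den r)²)`. -/
theorem hurwitz_sharp {c : ℝ} (hc : √5 < c) :
    {r : ℚ | |goldenRatio - r| < 1 / (c * (r.den : ℝ) ^ 2)}.Finite := by
  have h9 : 2 < (√5 : ℝ) := by
    rw [Real.lt_sqrt (by norm_num)]; norm_num
  have h8 : (√5 : ℝ) ^ 2 = 5 := Real.sq_sqrt (by norm_num)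
  obtain ⟨N, hN⟩ := exists_nat_gt (1 / (c * (c - √5)))
  -- the denominators are bounded
  have key : ∀ r : ℚ, |goldenRatio - r| < 1 / (c * (r.den : ℝ) ^ 2) →
      r.den ≤ N ∧ |r| ≤ 3 := by
    intro r hr
    have hd : (1 : ℝ) ≤ r.den := by exact_mod_cast r.pos
    set d : ℝ := (r.den : ℝ) with hdd
    have hrd : (r : ℝ) * d = r.num := by
      rw [hdd]
      exact_mod_cast Rat.mul_den_eq_num r
    -- the norm form
    have h1 : ((r.num ^ 2 - r.num * r.den - r.den ^ 2 : ℤ) : ℝ) =
        d ^ 2 * ((r - goldenRatio) * (r - (1 - goldenRatio))) := by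
      push_cast
      rw [← hrd, ← hdd]
      have := goldenRatio_sq
      linear_combination d ^ 2 * this
    have hne : r.num ^ 2 - r.num * r.den - (r.den : ℤ) ^ 2 ≠ 0 := by
      intro h0
      rw [h0, Int.cast_zero] at h1
      rcases mul_eq_zero.1 h1.symm with h | h
      · have : d ≠ 0 := by linarith
        exact absurd h (by positivity)
      · rcases mul_eq_zero.1 h with h | h
        · exact goldenRatio_irrational ⟨r, by linarith⟩
        · exact goldenRatio_irrational ⟨1 - r, by push_cast; linarith⟩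
    have h2 : (1 : ℝ) ≤ |((r.num ^ 2 - r.num * r.den - r.den ^ 2 : ℤ) : ℝ)| := by
      rw [← Int.cast_abs]
      exact_mod_cast Int.one_le_abs hne
    rw [h1, abs_mul, abs_mul, abs_of_pos (show 0 < d ^ 2 by positivity)] at h2
    have h3 : |(r : ℝ) - goldenRatio| < 1 / (c * d ^ 2) := by rwa [abs_sub_comm]
    have h4 : |(r : ℝ) - (1 - goldenRatio)| ≤ |(r : ℝ) - goldenRatio| + √5 := by
      have e1 : (r : ℝ) - (1 - goldenRatio) = (r - goldenRatio) + √5 := by
        rw [goldenRatio]; ring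
      rw [e1]
      refine (abs_add_le _ _).trans ?_
      rw [abs_of_pos (show 0 < (√5 : ℝ) by linarith)]
    have hc0 : 0 < c := by linarith
    have h5 : 1 ≤ 1 / c * (1 / (c * d ^ 2) + √5) := by
      refine h2.trans ?_
      have e2 : |(r : ℝ) - goldenRatio| * |(r : ℝ) - (1 - goldenRatio)| ≤
          1 / (c * d ^ 2) * (1 / (c * d ^ 2) + √5) :=
        mul_le_mul h3.le (by linarith) (abs_nonneg _) (by positivity)
      calc d ^ 2 * (|(r : ℝ) - goldenRatio| * |(r : ℝ) - (1 - goldenRatio)|) ≤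
            d ^ 2 * (1 / (c * d ^ 2) * (1 / (c * d ^ 2) + √5)) :=
            mul_le_mul_of_nonneg_left e2 (by positivity)
        _ = _ := by field_simp
    have h6 : c - √5 ≤ 1 / (c * d ^ 2) := by
      have e3 : c * 1 ≤ c * (1 / c * (1 / (c * d ^ 2) + √5)) := mul_le_mul_of_nonneg_left h5 hc0.le
      have e4 : c * (1 / c * (1 / (c * d ^ 2) + √5)) = 1 / (c * d ^ 2) + √5 := by field_simp
      rw [e4] at e3
      linarith
    have h7 : d ^ 2 ≤ 1 / (c * (c - √5)) := by
      rw [le_div_iff₀ (mul_pos hc0 (by linarith))]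
      rw [le_div_iff₀ (by positivity)] at h6
      linarith
    constructor
    · have e5 : (r.den : ℝ) ≤ N := by
        rw [← hdd]
        nlinarith
      exact_mod_cast e5
    · have e6 : 1 / (c * d ^ 2) ≤ 1 := by
        rw [div_le_one (by positivity)]
        nlinarith
      have e7 : goldenRatio < 2 := goldenRatio_lt_two
      have e8 : 0 < goldenRatio := goldenRatio_pos
      have e9 : |(r : ℝ)| ≤ 3 := by
        rw [abs_le]
        rw [abs_lt] at h3
        constructor <;> linarith [h3.1, h3.2]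
      exact_mod_cast e9
  refine ((((Finset.Icc (-(3 * N : ℤ)) (3 * N)) ×ˢ (Finset.Icc 0 N)).image
    (fun t : ℤ × ℕ => (t.1 / t.2 : ℚ)) : Finset ℚ).finite_toSet).subset fun r hr => ?_
  obtain ⟨h1, h2⟩ := key r hr
  rw [Finset.coe_image]
  refine ⟨(r.num, r.den), ?_, Rat.num_div_den r⟩
  rw [Finset.mem_coe, Finset.mem_product, Finset.mem_Icc, Finset.mem_Icc]
  refine ⟨?_, Nat.zero_le _, h1⟩
  have h3 : (r.num : ℚ) = r * r.den := (Rat.mul_den_eq_num r).symm
  have h4 : |(r.num : ℚ)| ≤ 3 * N := by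
    rw [h3, abs_mul, Nat.abs_cast]
    have h5 : (r.den : ℚ) ≤ N := by exact_mod_cast h1
    exact mul_le_mul h2 h5 (Nat.cast_nonneg _) (by norm_num)
  have h5 : |r.num| ≤ 3 * (N : ℤ) := by exact_mod_cast h4
  exact abs_le.1 h5

end Fermat.Agent.Cor.CF
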