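import Mathlib

/-!
# Continued fractions: the theorem of Euler and Lagrange

The continued fraction of an irrational real number `x` is ultimately periodic if and only if `x`
is a root of a quadratic polynomial with integral coefficients (Euler 1737, Lagrange 1770).
-/

set_option autoImplicit false

open Filter

namespace Fermat.Agent.Cor.CF

/-- the complete quotients of `x`: `x₀ = x`, `x_{n+1} = 1 / (x_n - ⌊x_n⌋)` -/
noncomputable def cq (x : ℝ) : ℕ → ℝ
  | 0 => x
  | n + 1 => (Int.fract (cq x n))⁻¹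

/-- the partial quotients of `x` -/
noncomputable def pq (x : ℝ) (n : ℕ) : ℤ := ⌊cq x n⌋

variable {x : ℝ}

theorem irrational_cq (hx : Irrational x) (n : ℕ) : Irrational (cq x n) := by
  induction n with
  | zero => exact hx
  | succ n ih =>
    have h : Irrational (cq x n - ⌊cq x n⌋) := ih.sub_intCast _
    exact h.inv

theorem fract_pos (hx : Irrational x) (n : ℕ) : 0 < Int.fract (cq x n) := by
  refine lt_of_le_of_ne (Int.fract_nonneg _) fun h => ?_
  have h1 : cq x n = (⌊cq x n⌋ : ℝ) := by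
    have := Int.floor_add_fract (cq x n)
    linarith
  exact (irrational_cq hx n).ne_int _ h1

theorem cq_succ (hx : Irrational x) (n : ℕ) : (cq x n - pq x n) * cq x (n + 1) = 1 :=
  mul_inv_cancel₀ (fract_pos hx n).ne'

theorem one_lt_cq (hx : Irrational x) (n : ℕ) : 1 < cq x (n + 1) :=
  (one_lt_inv₀ (fract_pos hx n)).2 (Int.fract_lt_one _)

theorem one_le_pq (hx : Irrational x) (n : ℕ) : 1 ≤ pq x (n + 1) :=
  Int.le_floor.2 (by exact_mod_cast (one_lt_cq hx n).le)

theorem cq_add (x : ℝ) (n m : ℕ) : cq x (n + m) = cq (cq x n) m := by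
  induction m with
  | zero => rfl
  | succ m ih => rw [← add_assoc, cq, ih, cq]

theorem pq_add (x : ℝ) (n m : ℕ) : pq x (n + m) = pq (cq x n) m := by
  rw [pq, pq, cq_add]

theorem pq_lt_cq (hx : Irrational x) (n : ℕ) : (pq x n : ℝ) < cq x n := by
  have := fract_pos hx n
  rw [Int.fract] at this
  exact sub_pos.1 this

/-! ### Uniqueness -/

theorem two_lt_mul (hx : Irrational x) (n : ℕ) : 2 < cq x (n + 1) * cq x (n + 2) := by
  have h1 := cq_succ hx (n + 1)
  have h2 := one_lt_cq hx (n + 1)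
  have h3 : (1 : ℝ) ≤ pq x (n + 1) := by exact_mod_cast one_le_pq hx n
  have h4 : cq x (n + 1) * cq x (n + 2) = pq x (n + 1) * cq x (n + 2) + 1 := by
    linear_combination h1
  rw [h4]
  nlinarith

theorem abs_sub_le {y : ℝ} (hx : Irrational x) (hy : Irrational y) (n : ℕ)
    (h : pq x n = pq y n) (h' : pq x (n + 1) = pq y (n + 1)) :
    4 * |cq x n - cq y n| ≤ |cq x (n + 2) - cq y (n + 2)| := by
  have e1 := cq_succ hx n
  have e2 := cq_succ hx (n + 1)
  have f1 := cq_succ hy n
  have f2 := cq_succ hy (n + 1)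
  rw [← h] at f1
  rw [← h'] at f2
  have g1 := one_lt_cq hx n
  have g2 := one_lt_cq hy n
  have g3 := one_lt_cq hx (n + 1)
  have g4 := one_lt_cq hy (n + 1)
  have e3 : (cq x n - cq y n) * (cq x (n + 1) * cq y (n + 1)) = cq y (n + 1) - cq x (n + 1) := by
    linear_combination cq y (n + 1) * e1 - cq x (n + 1) * f1
  have e4 : (cq x (n + 1) - cq y (n + 1)) * (cq x (n + 2) * cq y (n + 2)) =
      cq y (n + 2) - cq x (n + 2) := by
    linear_combination cq y (n + 2) * e2 - cq x (n + 2) * f2
  have e5 : (cq x n - cq y n) * ((cq x (n + 1) * cq x (n + 2)) * (cq y (n + 1) * cq y (n + 2))) =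
      cq x (n + 2) - cq y (n + 2) := by
    linear_combination (cq x (n + 2) * cq y (n + 2)) * e3 - e4
  have k1 := two_lt_mul hx n
  have k2 := two_lt_mul hy n
  have k3 : 4 ≤ (cq x (n + 1) * cq x (n + 2)) * (cq y (n + 1) * cq y (n + 2)) := by nlinarith
  rw [← e5, abs_mul, mul_comm, abs_of_pos (show 0 < (cq x (n + 1) * cq x (n + 2)) *
    (cq y (n + 1) * cq y (n + 2)) by linarith)]
  exact mul_le_mul_of_nonneg_left k3 (abs_nonneg _)

/-- An irrational number is determined by its partial quotients. -/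
theorem eq_of_pq_eq {y : ℝ} (hx : Irrational x) (hy : Irrational y) (h : ∀ n, pq x n = pq y n) :
    x = y := by
  have h1 : ∀ m, 4 ^ m * |cq x 0 - cq y 0| ≤ |cq x (2 * m) - cq y (2 * m)| := by
    intro m
    induction m with
    | zero => simp
    | succ m ih =>
      have h2 := abs_sub_le hx hy (2 * m) (h _) (h _)
      have h3 : 2 * (m + 1) = 2 * m + 2 := by ring
      rw [h3, pow_succ]
      linarith
  have h2 : ∀ n, |cq x n - cq y n| < 1 := by
    intro n
    have e1 := Int.floor_add_fract (cq x n)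
    have e2 := Int.floor_add_fract (cq y n)
    have e3 : (⌊cq x n⌋ : ℝ) = ⌊cq y n⌋ := by exact_mod_cast h n
    rw [abs_lt]
    constructor <;> linarith [Int.fract_nonneg (cq x n), Int.fract_lt_one (cq x n),
      Int.fract_nonneg (cq y n), Int.fract_lt_one (cq y n)]
  by_contra hne
  have h3 : 0 < |cq x 0 - cq y 0| := abs_pos.2 (sub_ne_zero.2 hne)
  obtain ⟨m, hm⟩ := pow_unbounded_of_one_lt (1 / |cq x 0 - cq y 0|) (show (1 : ℝ) < 4 by norm_num)
  have h4 := (h1 m).trans_lt (h2 _)
  rw [div_lt_iff₀ h3] at hm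
  linarith

/-! ### Euler: a periodic continued fraction is quadratic -/

/-- `x` is a root of a quadratic polynomial over `ℤ` -/
def IsQuad (x : ℝ) : Prop := ∃ a b c : ℤ, a ≠ 0 ∧ (a : ℝ) * x ^ 2 + b * x + c = 0

theorem isQuad_of_cq_succ (hx : Irrational x) (n : ℕ) (h : IsQuad (cq x (n + 1))) :
    IsQuad (cq x n) := by
  obtain ⟨a, b, c, ha, h⟩ := h
  have h1 := cq_succ hx n
  have hy0 : cq x (n + 1) ≠ 0 := by linarith [one_lt_cq hx n]
  set y := cq x (n + 1) with hy
  set z := cq x n with hz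
  set q := pq x n with hq
  have hc : c ≠ 0 := by
    rintro rfl
    have h2 : (a : ℝ) * y + b = 0 := by
      have : y * ((a : ℝ) * y + b) = 0 := by
        push_cast at h
        linear_combination h
      exact (mul_eq_zero.1 this).resolve_left hy0
    have ha' : (a : ℝ) ≠ 0 := by exact_mod_cast ha
    refine (irrational_cq hx (n + 1)).ne_rational (-b) a ?_
    push_cast
    rw [← hy]
    field_simp
    linear_combination h2
  refine ⟨c, b - 2 * q * c, a - b * q + c * q ^ 2, hc, ?_⟩
  have h3 : (a : ℝ) + b * (z - q) + c * (z - q) ^ 2 = 0 := by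
    have h4 : ((a : ℝ) * y ^ 2 + b * y + c) * (z - q) ^ 2 =
        a * ((z - q) * y) ^ 2 + b * ((z - q) * y) * (z - q) + c * (z - q) ^ 2 := by ring
    rw [h, h1, zero_mul] at h4
    linear_combination -h4
  push_cast
  linear_combination h3

theorem isQuad_of_cq (hx : Irrational x) (n : ℕ) (h : IsQuad (cq x n)) : IsQuad x := by
  induction n with
  | zero => exact h
  | succ n ih => exact ih (isQuad_of_cq_succ hx n h)

/-- `x = (α x_m + β) / (γ x_m + δ)` -/
theorem exists_moebius (hx : Irrational x) (h1 : ∀ n, 1 ≤ pq x n) (m : ℕ) :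
    ∃ α β γ δ : ℤ, 0 ≤ γ ∧ 0 ≤ δ ∧ 1 ≤ γ + δ ∧ (1 ≤ m → 1 ≤ γ) ∧
      x * (γ * cq x m + δ) = α * cq x m + β := by
  induction m with
  | zero =>
    refine ⟨1, 0, 0, 1, le_rfl, by norm_num, by norm_num, by omega, ?_⟩
    rw [cq]
    push_cast
    ring
  | succ m ih =>
    obtain ⟨α, β, γ, δ, hγ, hδ, hs, -, h⟩ := ih
    have h2 := h1 m
    have h3 : γ + δ ≤ γ * pq x m + δ := by nlinarith
    refine ⟨α * pq x m + β, α, γ * pq x m + δ, γ, by omega, hγ, by omega, fun _ => by omega, ?_⟩
    have h4 := cq_succ hx m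
    push_cast
    linear_combination cq x (m + 1) * h + (α - x * γ) * h4

/-- **Euler**: if the continued fraction of `x` is ultimately periodic, `x` is quadratic. -/
theorem isQuad_of_periodic (hx : Irrational x) {N p : ℕ} (hp : 0 < p)
    (h : ∀ n ≥ N, pq x (n + p) = pq x n) : IsQuad x := by
  refine isQuad_of_cq hx (N + 1) ?_
  set y := cq x (N + 1) with hy
  have hyi : Irrational y := irrational_cq hx (N + 1)
  have h1 : cq y p = y := by
    refine eq_of_pq_eq (irrational_cq hyi p) hyi fun n => ?_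
    rw [← pq_add, hy, ← pq_add, ← pq_add, show N + 1 + (p + n) = N + 1 + n + p by ring]
    exact h _ (by omega)
  obtain ⟨α, β, γ, δ, -, -, -, hγ, h2⟩ := exists_moebius hyi (fun n => by
    rw [hy, ← pq_add, show N + 1 + n = N + n + 1 by ring]
    exact one_le_pq hx _) p
  have h3 := hγ hp
  rw [h1] at h2
  refine ⟨γ, δ - α, -β, by omega, ?_⟩
  push_cast
  linear_combination h2

/-! ### Lagrange: the continued fraction of a quadratic number is periodic -/

/-- the quadratic equations of the complete quotients -/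
noncomputable def quad (x : ℝ) (a b c : ℤ) : ℕ → ℤ × ℤ × ℤ
  | 0 => (a, b, c)
  | n + 1 =>
    let t := quad x a b c n
    (t.1 * pq x n ^ 2 + t.2.1 * pq x n + t.2.2, 2 * t.1 * pq x n + t.2.1, t.1)

theorem quad_root (hx : Irrational x) {a b c : ℤ} (h : (a : ℝ) * x ^ 2 + b * x + c = 0) (n : ℕ) :
    ((quad x a b c n).1 : ℝ) * cq x n ^ 2 + (quad x a b c n).2.1 * cq x n +
      (quad x a b c n).2.2 = 0 := by
  induction n with
  | zero => exact h
  | succ n ih =>
    set A := (quad x a b c n).1 with hA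
    set B := (quad x a b c n).2.1 with hB
    set C := (quad x a b c n).2.2 with hC
    change ((A * pq x n ^ 2 + B * pq x n + C : ℤ) : ℝ) * cq x (n + 1) ^ 2 +
      ((2 * A * pq x n + B : ℤ) : ℝ) * cq x (n + 1) + (A : ℤ) = 0
    have h1 := cq_succ hx n
    set y := cq x (n + 1) with hy
    set z := cq x n with hz
    set q := (pq x n : ℝ) with hq
    push_cast
    rw [← hq]
    -- `y = 1 / (z - q)`
    have h2 : (A : ℝ) * (z * y) ^ 2 + B * (z * y) * y + C * y ^ 2 = 0 := by
      linear_combination y ^ 2 * ih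
    have h3 : z * y = q * y + 1 := by linear_combination h1
    rw [h3] at h2
    linear_combination h2

theorem quad_disc (x : ℝ) (a b c : ℤ) (n : ℕ) :
    (quad x a b c n).2.1 ^ 2 - 4 * (quad x a b c n).1 * (quad x a b c n).2.2 =
      b ^ 2 - 4 * a * c := by
  induction n with
  | zero => rfl
  | succ n ih =>
    rw [← ih]
    simp only [quad]
    ring

theorem quad_ne_zero (hx : Irrational x) {a b c : ℤ} (ha : a ≠ 0)
    (h : (a : ℝ) * x ^ 2 + b * x + c = 0) (n : ℕ) : (quad x a b c n).1 ≠ 0 := by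
  -- a discriminant which is a square makes `x` rational
  have hD : ¬ IsSquare (b ^ 2 - 4 * a * c) := by
    rintro ⟨s, hs⟩
    have h1 : (2 * (a : ℝ) * x + b) ^ 2 = (s : ℝ) ^ 2 := by
      have h2 : ((b : ℝ) ^ 2 - 4 * a * c) = s * s := by exact_mod_cast hs
      linear_combination 4 * (a : ℝ) * h + h2
    have ha' : (a : ℝ) ≠ 0 := by exact_mod_cast ha
    rcases sq_eq_sq_iff_eq_or_eq_neg.1 h1 with h2 | h2
    · refine hx.ne_rational (s - b) (2 * a) ?_
      push_cast
      field_simp
      linear_combination h2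
    · refine hx.ne_rational (-s - b) (2 * a) ?_
      push_cast
      field_simp
      linear_combination h2
  intro h0
  have h1 := quad_disc x a b c n
  rw [h0] at h1
  exact hD ⟨(quad x a b c n).2.1, by rw [← h1]; ring⟩

theorem quad_last (x : ℝ) (a b c : ℤ) (n : ℕ) :
    (quad x a b c (n + 1)).2.2 = (quad x a b c n).1 := rfl

theorem quad_neg_succ (hx : Irrational x) {a b c : ℤ} (h : (a : ℝ) * x ^ 2 + b * x + c = 0) (n : ℕ)
    (hn : (quad x a b c (n + 1)).1 * (quad x a b c (n + 1)).2.2 < 0) :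
    (quad x a b c (n + 2)).1 * (quad x a b c (n + 2)).2.2 < 0 := by
  have h1 := quad_root hx h (n + 1)
  have e1 : (quad x a b c (n + 2)).1 = (quad x a b c (n + 1)).1 * pq x (n + 1) ^ 2 +
      (quad x a b c (n + 1)).2.1 * pq x (n + 1) + (quad x a b c (n + 1)).2.2 := rfl
  have e2 : (quad x a b c (n + 2)).2.2 = (quad x a b c (n + 1)).1 := rfl
  rw [e2, e1]
  set A := (quad x a b c (n + 1)).1 with hA
  set B := (quad x a b c (n + 1)).2.1 with hB
  set C := (quad x a b c (n + 1)).2.2 with hC
  have hz := one_lt_cq hx n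
  have hq := pq_lt_cq hx (n + 1)
  have hq1 : (1 : ℝ) ≤ pq x (n + 1) := by exact_mod_cast one_le_pq hx n
  set z := cq x (n + 1) with hzdef
  have hn' : (A : ℝ) * C < 0 := by exact_mod_cast hn
  have hA0 : (A : ℝ) ≠ 0 := by
    intro h0
    rw [h0, zero_mul] at hn'
    exact lt_irrefl _ hn'
  have h2 : 0 < (A : ℝ) * (A * z + B) := by
    have h3 : (A : ℝ) * (A * z + B) * z = -(A * C) := by linear_combination (A : ℝ) * h1
    have h4 : 0 < (A : ℝ) * (A * z + B) * z := by rw [h3]; linarith
    exact (pos_iff_pos_of_mul_pos h4).2 (by linarith)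
  have h5 : ((A * pq x (n + 1) ^ 2 + B * pq x (n + 1) + C : ℤ) : ℝ) * A =
      -((z - pq x (n + 1)) * ((A : ℝ) ^ 2 * pq x (n + 1) + A * (A * z + B))) := by
    push_cast
    linear_combination (A : ℝ) * h1
  have h6 : ((A * pq x (n + 1) ^ 2 + B * pq x (n + 1) + C : ℤ) : ℝ) * A < 0 := by
    rw [h5, neg_lt_zero]
    have h7 : 0 < (A : ℝ) ^ 2 := by positivity
    exact mul_pos (by linarith) (by nlinarith)
  exact_mod_cast h6

theorem exists_quad_neg (hx : Irrational x) {a b c : ℤ} (ha : a ≠ 0)
    (h : (a : ℝ) * x ^ 2 + b * x + c = 0) :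
    ∃ n, (quad x a b c (n + 1)).1 * (quad x a b c (n + 1)).2.2 < 0 := by
  by_contra hcon
  push Not at hcon
  have h0 := quad_ne_zero hx ha h
  have h1 : ∀ n, 0 < (quad x a b c (n + 1)).1 * (quad x a b c n).1 := fun n =>
    lt_of_le_of_ne (hcon n) (mul_ne_zero (h0 _) (h0 _)).symm
  have h2 : ∀ n, 0 < a * (quad x a b c n).1 := by
    intro n
    induction n with
    | zero => exact mul_self_pos.2 ha
    | succ n ih =>
      have h3 := mul_pos ih (h1 n)
      have h4 : a * (quad x a b c n).1 * ((quad x a b c (n + 1)).1 * (quad x a b c n).1) =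
        (a * (quad x a b c (n + 1)).1) * (quad x a b c n).1 ^ 2 := by ring
      rw [h4] at h3
      exact (pos_iff_pos_of_mul_pos h3).2 (by have := h0 n; positivity)
  have h3 : ∀ n, a * (quad x a b c (n + 1)).2.1 < 0 := by
    intro n
    have h4 := quad_root hx h (n + 1)
    rw [quad_last] at h4
    have h5 : (0 : ℝ) < a * (quad x a b c (n + 1)).1 := by exact_mod_cast h2 (n + 1)
    have h6 : (0 : ℝ) < a * (quad x a b c n).1 := by exact_mod_cast h2 n
    have hz := one_lt_cq hx n
    have h7 : (a : ℝ) * (quad x a b c (n + 1)).2.1 * cq x (n + 1) =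
        -((a * (quad x a b c (n + 1)).1) * cq x (n + 1) ^ 2 + a * (quad x a b c n).1) := by
      linear_combination (a : ℝ) * h4
    have h8 : (a : ℝ) * (quad x a b c (n + 1)).2.1 * cq x (n + 1) < 0 := by
      rw [h7, neg_lt_zero]
      positivity
    have h9 : (a : ℝ) * (quad x a b c (n + 1)).2.1 < 0 := by
      by_contra h10
      exact absurd (mul_nonneg (not_lt.1 h10) (by linarith : (0 : ℝ) ≤ cq x (n + 1)))
        (not_le.2 h8)
    exact_mod_cast h9
  have h4 : ∀ n : ℕ, a * (quad x a b c 1).2.1 + n ≤ a * (quad x a b c (n + 1)).2.1 := by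
    intro n
    induction n with
    | zero => simp
    | succ n ih =>
      have e1 : (quad x a b c (n + 2)).2.1 =
        2 * (quad x a b c (n + 1)).1 * pq x (n + 1) + (quad x a b c (n + 1)).2.1 := rfl
      have h5 := h2 (n + 1)
      have h6 := one_le_pq hx n
      have h7 : a * (quad x a b c (n + 2)).2.1 =
          2 * ((a * (quad x a b c (n + 1)).1) * pq x (n + 1)) +
            a * (quad x a b c (n + 1)).2.1 := by rw [e1]; ring
      have h8 : 1 ≤ (a * (quad x a b c (n + 1)).1) * pq x (n + 1) := by nlinarith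
      have h9 : n + 1 + 1 = n + 2 := rfl
      rw [h9, h7]
      push_cast
      linarith
  have h5 := h4 (a * (quad x a b c 1).2.1).natAbs
  have h6 := h3 (a * (quad x a b c 1).2.1).natAbs
  omega

/-- **Lagrange**: the continued fraction of a quadratic irrational number is ultimately
periodic. -/
theorem periodic_of_isQuad (hx : Irrational x) (h : IsQuad x) :
    ∃ N p : ℕ, 0 < p ∧ ∀ n ≥ N, pq x (n + p) = pq x n := by
  obtain ⟨a, b, c, ha, h⟩ := h
  obtain ⟨N, hN⟩ := exists_quad_neg hx ha h
  have hneg : ∀ n, (quad x a b c (N + n + 1)).1 * (quad x a b c (N + n + 1)).2.2 < 0 := by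
    intro n
    induction n with
    | zero => exact hN
    | succ n ih => exact quad_neg_succ hx h (N + n) ih
  set D := b ^ 2 - 4 * a * c with hD
  have hbound : ∀ n, quad x a b c (N + n + 1) ∈
      (Finset.Icc (-D) D) ×ˢ ((Finset.Icc (-D) D) ×ˢ (Finset.Icc (-D) D)) := by
    intro n
    have h1 := quad_disc x a b c (N + n + 1)
    rw [← hD] at h1
    have h2 := hneg n
    set A := (quad x a b c (N + n + 1)).1 with hA
    set B := (quad x a b c (N + n + 1)).2.1 with hB
    set C := (quad x a b c (N + n + 1)).2.2 with hC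
    have hA0 : A ≠ 0 := by rintro h0; rw [h0, zero_mul] at h2; exact lt_irrefl _ h2
    have hC0 : C ≠ 0 := by rintro h0; rw [h0, mul_zero] at h2; exact lt_irrefl _ h2
    have hA1 : 1 ≤ |A| := Int.one_le_abs hA0
    have hC1 : 1 ≤ |C| := Int.one_le_abs hC0
    have hAC : |A| * |C| = -(A * C) := by rw [← abs_mul, abs_of_neg h2]
    have hB1 : |B| ≤ B ^ 2 := by
      rw [← sq_abs]
      rcases eq_or_ne B 0 with h0 | h0
      · rw [h0]; simp
      · have := Int.one_le_abs h0
        nlinarith
    have k1 : |A| ≤ D := by nlinarith [sq_nonneg B]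
    have k2 : |C| ≤ D := by nlinarith [sq_nonneg B]
    have k3 : |B| ≤ D := by nlinarith
    rw [Finset.mem_product, Finset.mem_product, Finset.mem_Icc, Finset.mem_Icc, Finset.mem_Icc]
    exact ⟨abs_le.1 k1, abs_le.1 k3, abs_le.1 k2⟩
  obtain ⟨m, m', hne, heq⟩ := Finite.exists_ne_map_eq_of_infinite
    (fun n : ℕ => (⟨quad x a b c (N + n + 1), hbound n⟩ :
      ((Finset.Icc (-D) D) ×ˢ ((Finset.Icc (-D) D) ×ˢ (Finset.Icc (-D) D)) : Finset _)))
  have heq' : quad x a b c (N + m + 1) = quad x a b c (N + m' + 1) := congrArg Subtype.val heq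
  have hcq : cq x (N + m + 1) = cq x (N + m' + 1) := by
    have h1 := quad_root hx h (N + m + 1)
    have h2 := quad_root hx h (N + m' + 1)
    have h3 := hneg m
    rw [← heq'] at h2
    set A := (quad x a b c (N + m + 1)).1 with hA
    set B := (quad x a b c (N + m + 1)).2.1 with hB
    set C := (quad x a b c (N + m + 1)).2.2 with hC
    have hz := one_lt_cq hx (N + m)
    have hw := one_lt_cq hx (N + m')
    set z := cq x (N + m + 1) with hz'
    set w := cq x (N + m' + 1) with hw'
    by_contra hzw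
    have h4 : (A : ℝ) * (z + w) + B = 0 := by
      have h5 : (z - w) * ((A : ℝ) * (z + w) + B) = 0 := by linear_combination h1 - h2
      exact (mul_eq_zero.1 h5).resolve_left (sub_ne_zero.2 hzw)
    have h5 : (A : ℝ) * C = A ^ 2 * (z * w) := by
      linear_combination (A : ℝ) * h1 - (A : ℝ) * z * h4
    have h6 : (A : ℝ) * C < 0 := by exact_mod_cast h3
    rw [h5] at h6
    have : 0 ≤ (A : ℝ) ^ 2 * (z * w) := by positivity
    linarith
  -- the period
  have key : ∀ i j : ℕ, i < j → cq x (N + i + 1) = cq x (N + j + 1) →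
      ∃ N p : ℕ, 0 < p ∧ ∀ n ≥ N, pq x (n + p) = pq x n := by
    intro i j hij hc
    refine ⟨N + i + 1, j - i, by omega, fun n hn => ?_⟩
    obtain ⟨k, rfl⟩ := Nat.exists_eq_add_of_le hn
    have e1 : N + i + 1 + k + (j - i) = N + j + 1 + k := by omega
    rw [e1, pq_add, pq_add, hc]
  rcases lt_or_gt_of_ne hne with hlt | hlt
  · exact key m m' hlt hcq
  · exact key m' m hlt hcq.symm

/-- **The theorem of Euler and Lagrange**: the sequence of the partial quotients of an irrational
number is ultimately periodic if and only if the number is a root of a quadratic polynomial over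
`ℤ`. -/
theorem periodic_iff (hx : Irrational x) :
    (∃ N p : ℕ, 0 < p ∧ ∀ n ≥ N, pq x (n + p) = pq x n) ↔
      ∃ a b c : ℤ, a ≠ 0 ∧ (a : ℝ) * x ^ 2 + b * x + c = 0 :=
  ⟨fun ⟨_, _, hp, h⟩ => isQuad_of_periodic hx hp h, periodic_of_isQuad hx⟩

/-! ### The connection with Mathlib's continued fractions -/

theorem stream_eq (hx : Irrational x) (n : ℕ) :
    GenContFract.IntFractPair.stream x n = some (GenContFract.IntFractPair.of (cq x n)) := by
  induction n with
  | zero => rfl
  | succ n ih =>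
    rw [GenContFract.IntFractPair.stream, ih]
    have h : (GenContFract.IntFractPair.of (cq x n)).fr ≠ 0 := (fract_pos hx n).ne'
    simp only [Option.bind_some, h, if_false]
    rfl

theorem of_get? (hx : Irrational x) (n : ℕ) :
    (GenContFract.of x).s.get? n = some ⟨1, (pq x (n + 1) : ℝ)⟩ :=
  GenContFract.get?_of_eq_some_of_succ_get?_intFractPair_stream (stream_eq hx (n + 1))

/-- The theorem of Euler and Lagrange for Mathlib's continued fraction `GenContFract.of x`. -/
theorem of_periodic_iff (hx : Irrational x) :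
    (∃ N p : ℕ, 0 < p ∧ ∀ n ≥ N,
      (GenContFract.of x).s.get? (n + p) = (GenContFract.of x).s.get? n) ↔
      ∃ a b c : ℤ, a ≠ 0 ∧ (a : ℝ) * x ^ 2 + b * x + c = 0 := by
  rw [← periodic_iff hx]
  constructor
  · rintro ⟨N, p, hp, h⟩
    refine ⟨N + 1, p, hp, fun n hn => ?_⟩
    obtain ⟨k, rfl⟩ : ∃ k, n = k + 1 := ⟨n - 1, by omega⟩
    have h1 := h k (by omega)
    rw [of_get? hx, of_get? hx] at h1
    have h2 : ((pq x (k + p + 1) : ℤ) : ℝ) = ((pq x (k + 1) : ℤ) : ℝ) :=
      congrArg GenContFract.Pair.b (Option.some.inj h1)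
    have h3 : pq x (k + p + 1) = pq x (k + 1) := by exact_mod_cast h2
    rw [← h3]
    congr 1
    omega
  · rintro ⟨N, p, hp, h⟩
    refine ⟨N, p, hp, fun n hn => ?_⟩
    rw [of_get? hx, of_get? hx, show n + p + 1 = n + 1 + p by omega, h (n + 1) (by omega)]

end Fermat.Agent.Cor.CF
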