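import Fermat.Agent.Corollaries.CF.Lagrange

/-!
# Serret's theorem

Two irrational numbers are equivalent under the Moebius transformations of `GL₂(ℤ)` if and only if
their continued fractions have a common tail (J.-A. Serret 1866).
-/

set_option autoImplicit false

namespace Fermat.Agent.Cor.CF

variable {x y z : ℝ}

/-- the continued fractions of `x` and `y` have a common tail -/
def Tail (x y : ℝ) : Prop := ∃ m n : ℕ, cq x m = cq y n

theorem Tail.refl (x : ℝ) : Tail x x := ⟨0, 0, rfl⟩

theorem Tail.symm (h : Tail x y) : Tail y x := by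
  obtain ⟨m, n, h⟩ := h
  exact ⟨n, m, h.symm⟩

theorem Tail.trans (h : Tail x y) (h' : Tail y z) : Tail x z := by
  obtain ⟨m, n, h⟩ := h
  obtain ⟨m', n', h'⟩ := h'
  refine ⟨m + m', n' + n, ?_⟩
  rw [cq_add, h, ← cq_add, add_comm n m', cq_add, h', ← cq_add]

theorem tail_add_int (x : ℝ) (k : ℤ) : Tail x (x + k) := by
  refine ⟨1, 1, ?_⟩
  change (Int.fract x)⁻¹ = (Int.fract (x + k))⁻¹
  rw [Int.fract_add_intCast]

theorem tail_inv_of_pos (hx : Irrational x) (h0 : 0 < x) : Tail x x⁻¹ := by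
  rcases lt_trichotomy x 1 with h | h | h
  · refine ⟨1, 0, ?_⟩
    change (Int.fract x)⁻¹ = x⁻¹
    rw [Int.fract_eq_self.2 ⟨h0.le, h⟩]
  · exact absurd h (by simpa using hx.ne_int 1)
  · refine ⟨0, 1, ?_⟩
    change x = (Int.fract x⁻¹)⁻¹
    rw [Int.fract_eq_self.2 ⟨(inv_pos.2 h0).le, inv_lt_one_of_one_lt₀ h⟩, inv_inv]

theorem tail_cq (x : ℝ) (n : ℕ) : Tail x (cq x n) := ⟨n, 0, rfl⟩

theorem tail_neg (hx : Irrational x) : Tail x (-x) := by
  have hfr := fract_pos hx 0
  rw [show cq x 0 = x from rfl] at hfr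
  have h1 : Int.fract (-x) = 1 - Int.fract x := Int.fract_neg hfr.ne'
  set w := cq x 1 with hw
  have hw1 : 1 < w := one_lt_cq hx 0
  have hwi : Irrational w := irrational_cq hx 1
  have hfw : Int.fract x = w⁻¹ := by
    rw [hw]
    change Int.fract x = ((Int.fract x)⁻¹)⁻¹
    rw [inv_inv]
  have h2 : cq (-x) 1 = (w - 1)⁻¹ + ((1 : ℤ) : ℝ) := by
    change (Int.fract (-x))⁻¹ = _
    rw [h1, hfw]
    have h3 : w ≠ 0 := by linarith
    have h4 : w - 1 ≠ 0 := by linarith
    have h5 : 1 - w⁻¹ = (w - 1) / w := by field_simp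
    rw [h5, inv_div]
    push_cast
    field_simp
    ring
  have hwi' : Irrational (w + ((-1 : ℤ) : ℝ)) := hwi.add_intCast (-1)
  have e : w + ((-1 : ℤ) : ℝ) = w - 1 := by push_cast; ring
  have t1 : Tail x w := tail_cq x 1
  have t2 : Tail w (w - 1) := e ▸ tail_add_int w (-1)
  have t3 : Tail (w - 1) (w - 1)⁻¹ := tail_inv_of_pos (e ▸ hwi') (by linarith)
  have t4 : Tail (w - 1)⁻¹ (cq (-x) 1) := h2 ▸ tail_add_int _ 1
  exact (((t1.trans t2).trans t3).trans t4).trans (tail_cq (-x) 1).symm

theorem tail_inv (hx : Irrational x) : Tail x x⁻¹ := by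
  rcases lt_or_gt_of_ne hx.ne_zero with h | h
  · have t1 := tail_neg hx
    have t2 : Tail (-x) (-x)⁻¹ := tail_inv_of_pos hx.neg (by linarith)
    have t3 : Tail x⁻¹ (-x⁻¹) := tail_neg hx.inv
    rw [inv_neg] at t2
    exact (t1.trans t2).trans t3.symm
  · exact tail_inv_of_pos hx h

theorem tail_of_moebius (k : ℕ) : ∀ (x y : ℝ) (α β γ δ : ℤ), γ.natAbs = k → Irrational x →
    Irrational y → IsUnit (α * δ - β * γ) → x * (γ * y + δ) = α * y + β → Tail x y := by
  induction k using Nat.strong_induction_on with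
  | _ k ih =>
  intro x y α β γ δ hk hx hy hdet h
  rcases eq_or_ne γ 0 with h0 | h0
  · subst h0
    rw [mul_zero, sub_zero] at hdet
    have hδ : IsUnit δ := isUnit_of_mul_isUnit_right hdet
    have hα : IsUnit α := isUnit_of_mul_isUnit_left hdet
    rw [Int.cast_zero, zero_mul, zero_add] at h
    rcases Int.isUnit_iff.1 hδ with rfl | rfl <;> rcases Int.isUnit_iff.1 hα with rfl | rfl
    · have e : x = y + β := by push_cast at h; linarith
      rw [e]
      exact (tail_add_int y β).symm
    · have e : x = -y + β := by push_cast at h; linarith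
      rw [e]
      exact ((tail_neg hy).trans (tail_add_int (-y) β)).symm
    · have e : x = -y + ((-β : ℤ) : ℝ) := by push_cast at h ⊢; linarith
      rw [e]
      exact ((tail_neg hy).trans (tail_add_int (-y) (-β))).symm
    · have e : x = y + ((-β : ℤ) : ℝ) := by push_cast at h ⊢; linarith
      rw [e]
      exact (tail_add_int y (-β)).symm
  · set q := α / γ with hq
    set r := α % γ with hr
    have hqr : γ * q + r = α := Int.mul_ediv_add_emod α γ
    have hr0 : 0 ≤ r := Int.emod_nonneg _ h0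
    have hr1 : r < |γ| := Int.emod_lt_abs _ h0
    have hx' : Irrational (x + ((-q : ℤ) : ℝ)) := hx.add_intCast (-q)
    have h1 : (x + ((-q : ℤ) : ℝ)) * (γ * y + δ) = r * y + ((β - q * δ : ℤ) : ℝ) := by
      have : (α : ℝ) = γ * q + r := by exact_mod_cast hqr.symm
      push_cast
      rw [this] at h
      linear_combination h
    have h2 : (x + ((-q : ℤ) : ℝ))⁻¹ * (r * y + ((β - q * δ : ℤ) : ℝ)) = γ * y + δ := by
      rw [← h1, ← mul_assoc, inv_mul_cancel₀ hx'.ne_zero, one_mul]
    have h3 : IsUnit (γ * (β - q * δ) - δ * r) := by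
      have e : γ * (β - q * δ) - δ * r = -(α * δ - β * γ) := by
        rw [← hqr]
        ring
      rw [e]
      exact hdet.neg
    have hlt : r.natAbs < k := by
      have e := Int.natCast_natAbs γ
      rw [← hk]
      omega
    have t1 : Tail (x + ((-q : ℤ) : ℝ))⁻¹ y :=
      ih r.natAbs hlt _ y γ δ r (β - q * δ) rfl hx'.inv hy h3 h2
    exact ((tail_add_int x (-q)).trans (tail_inv hx')).trans t1

/-- `x` and `y` are equivalent under `GL₂(ℤ)` -/
def Moeb (x y : ℝ) : Prop :=
  ∃ α β γ δ : ℤ, IsUnit (α * δ - β * γ) ∧ x * (γ * y + δ) = α * y + β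

theorem Moeb.refl (x : ℝ) : Moeb x x := ⟨1, 0, 0, 1, by norm_num, by push_cast; ring⟩

theorem Moeb.symm (h : Moeb x y) : Moeb y x := by
  obtain ⟨α, β, γ, δ, hdet, h⟩ := h
  refine ⟨-δ, β, γ, -α, ?_, ?_⟩
  · have e : -δ * -α - β * γ = α * δ - β * γ := by ring
    rw [e]
    exact hdet
  · push_cast
    linear_combination h

theorem Moeb.trans (h : Moeb x y) (h' : Moeb y z) : Moeb x z := by
  obtain ⟨α, β, γ, δ, hdet, h⟩ := h
  obtain ⟨α', β', γ', δ', hdet', h'⟩ := h'
  refine ⟨α * α' + β * γ', α * β' + β * δ', γ * α' + δ * γ', γ * β' + δ * δ', ?_, ?_⟩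
  · have e : (α * α' + β * γ') * (γ * β' + δ * δ') - (α * β' + β * δ') * (γ * α' + δ * γ') =
        (α * δ - β * γ) * (α' * δ' - β' * γ') := by ring
    rw [e]
    exact hdet.mul hdet'
  · push_cast
    linear_combination (γ' * z + δ') * h + (α - x * γ) * h'

theorem moeb_cq (hx : Irrational x) (n : ℕ) : Moeb x (cq x n) := by
  induction n with
  | zero => exact Moeb.refl x
  | succ n ih =>
    refine ih.trans ⟨pq x n, 1, 1, 0, by norm_num, ?_⟩
    have := cq_succ hx n
    push_cast
    linear_combination this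

/-- **Serret's theorem** (1866): the continued fractions of the irrational numbers `x` and `y`
have a common tail if and only if `x = (α y + β) / (γ y + δ)` for integers `α, β, γ, δ` with
`α δ - β γ = ± 1`. -/
theorem serret (hx : Irrational x) (hy : Irrational y) :
    (∃ m n : ℕ, ∀ k, pq x (m + k) = pq y (n + k)) ↔
      ∃ α β γ δ : ℤ, (α * δ - β * γ = 1 ∨ α * δ - β * γ = -1) ∧
        x = (α * y + β) / (γ * y + δ) := by
  constructor
  · rintro ⟨m, n, h⟩
    have h1 : cq x m = cq y n := by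
      refine eq_of_pq_eq (irrational_cq hx m) (irrational_cq hy n) fun k => ?_
      rw [← pq_add, ← pq_add]
      exact h k
    have h2 : Moeb x y := by
      have e := moeb_cq hx m
      rw [h1] at e
      exact e.trans (moeb_cq hy n).symm
    obtain ⟨α, β, γ, δ, hdet, h3⟩ := h2
    refine ⟨α, β, γ, δ, Int.isUnit_iff.1 hdet, ?_⟩
    have h4 : (γ : ℝ) * y + δ ≠ 0 := by
      intro h0
      rcases eq_or_ne γ 0 with hγ | hγ
      · subst hγ
        rw [Int.cast_zero, zero_mul, zero_add] at h0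
        have hδ : δ = 0 := by exact_mod_cast h0
        subst hδ
        simp at hdet
      · have hγ' : (γ : ℝ) ≠ 0 := by exact_mod_cast hγ
        refine hy.ne_rational (-δ) γ ?_
        rw [eq_div_iff hγ']
        push_cast
        linear_combination h0
    rw [eq_div_iff h4]
    exact h3
  · rintro ⟨α, β, γ, δ, hdet, h⟩
    have h4 : (γ : ℝ) * y + δ ≠ 0 := by
      intro h0
      rw [h0, div_zero] at h
      exact hx.ne_zero h
    have h5 : Tail x y := tail_of_moebius _ x y α β γ δ rfl hx hy (Int.isUnit_iff.2 hdet)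
      ((eq_div_iff h4).1 h)
    obtain ⟨m, n, hmn⟩ := h5
    exact ⟨m, n, fun k => by rw [pq_add, pq_add, hmn]⟩

end Fermat.Agent.Cor.CF
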